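/-
LSc / Core / Frobenial  (helper8)

PROJECT LSc (route FN for S35): Frobenius on the `q`-new classes of `J₀(M' q)[n]`.

This file: the notion of a FROBENIAL automorphism of a nodal datum (the analogue of
`NodalDatum.IsInertial` for a power of a Frobenius lift in the decomposition group) and brick C3:

  for a Kummer unit `u` and a Frobenial `s` of exponent `Q`, the function `s u / u ^ Q` is a
  constant times an `n`-th power.

Proof: copy of `NodalCtx.twist_eq_one` (LSb/Core/Kummer2) with `t = s(h) · h' ^ Q` in place of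
`σ(h) · h'`, then helper6's Čech core.
-/
import Fermat.Agent.LSb.Core.Unipotent

set_option autoImplicit false

noncomputable section

namespace Fermat.Agent.LSc

open AlgebraicCurve Module Fermat.Agent.LSb

/-! ### values at a fixed place under a semilinear automorphism -/

section ValAt

variable {K Fk : Type*} [Field K] [Field Fk] [Algebra K Fk]

theorem vanishAt_smul_iff (t : SemilinearAut K Fk) (x : Place K Fk) (ψ : Fk) :
    Core.VanishAt (t • x) (t • ψ) ↔ Core.VanishAt x ψ := by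
  rw [Core.vanishAt_iff, Core.vanishAt_iff, SemilinearAut.ord_smul]
  have : t • ψ = 0 ↔ ψ = 0 := by
    rw [SemilinearAut.smul_def]
    exact map_eq_zero_iff _ (SemilinearAut.toRingAut t).injective
  rw [this]

theorem smul_mem_toValuationSubring_iff (t : SemilinearAut K Fk) (x : Place K Fk) (ψ : Fk) :
    t • ψ ∈ (t • x).toValuationSubring ↔ ψ ∈ x.toValuationSubring := by
  rw [SemilinearAut.smul_toValuationSubring,
    ValuationSubring.mem_pointwise_smul_iff_inv_smul_mem, inv_smul_smul]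

/-- the value at a FIXED place of degree one transforms by the base automorphism -/
theorem valAt_smul_of_fixed (t : SemilinearAut K Fk) {x : Place K Fk} (hx : t • x = x)
    (hdeg : x.deg = 1) {φ : Fk} (hφ : φ ∈ x.toValuationSubring) :
    Core.valAt x (t • φ) = SemilinearAut.baseAut t (Core.valAt x φ) := by
  have h := Core.vanishAt_sub_valAt x hdeg hφ
  have h2 := (vanishAt_smul_iff t x _).2 h
  rw [hx, smul_sub, SemilinearAut.smul_algebraMap] at h2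
  exact Core.valAt_eq_of_vanishAt h2

theorem smul_mem_of_fixed (t : SemilinearAut K Fk) {x : Place K Fk} (hx : t • x = x)
    {φ : Fk} (hφ : φ ∈ x.toValuationSubring) : t • φ ∈ x.toValuationSubring := by
  have := (smul_mem_toValuationSubring_iff t x φ).2 hφ
  rwa [hx] at this

end ValAt

variable {L : Type*} [Field L] {A : ValuationSubring L}
variable {F : Type*} [Field F] [Algebra L F]
variable {F₁ F₂ : Type*} [Field F₁] [Field F₂]
variable [Algebra (IsLocalRing.ResidueField A) F₁] [Algebra (IsLocalRing.ResidueField A) F₂]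

local notation "k" => IsLocalRing.ResidueField A

/-- A semilinear automorphism `s` of `F / L` acting like (a power of) a FROBENIUS LIFT in the
decomposition group: it preserves both Gauss valuation rings and both chart divisors, and induces
on the two residue curves semilinear automorphisms `t₁`, `t₂` over `c ↦ c ^ Q` of `k` which FIX
the node places.  (Modular case: `s = σ²`, `σ` a Frobenius lift at `A ∣ q`, `Q = q²`, `tᵢ` the
coefficientwise `q²`-Frobenius of `FRes A M' ⊆ k((t))`.) -/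
structure IsFrobenial (D : NodalDatum A F F₁ F₂) (s : SemilinearAut L F) (Q : ℕ)
    (t₁ : SemilinearAut k F₁) (t₂ : SemilinearAut k F₂) : Prop where
  mem₁ : ∀ y : F, s • y ∈ D.V₁.O ↔ y ∈ D.V₁.O
  mem₂ : ∀ y : F, s • y ∈ D.V₂.O ↔ y ∈ D.V₂.O
  red₁ : ∀ y : F, y ∈ D.V₁.O → D.V₁.redF (s • y) = t₁ • D.V₁.redF y
  red₂ : ∀ y : F, y ∈ D.V₂.O → D.V₂.redF (s • y) = t₂ • D.V₂.redF y
  base₁ : ∀ c : k, SemilinearAut.baseAut t₁ c = c ^ Q
  base₂ : ∀ c : k, SemilinearAut.baseAut t₂ c = c ^ Q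
  smul_x₁ : ∀ c, t₁ • D.x₁ c = D.x₁ c
  smul_x₂ : ∀ c, t₂ • D.x₂ c = D.x₂ c
  smul_P₁ : s • D.P₁ = D.P₁
  smul_P₂ : s • D.P₂ = D.P₂

section FrobenialLemmas

variable {D : NodalDatum A F F₁ F₂} {s : SemilinearAut L F} {Q : ℕ}

theorem IsFrobenial.mem_O_iff {t₁ : SemilinearAut k F₁} {t₂ : SemilinearAut k F₂}
    (hs : IsFrobenial D s Q t₁ t₂) (y : F) : s • y ∈ D.O ↔ y ∈ D.O := by
  rw [NodalDatum.mem_O, NodalDatum.mem_O, hs.mem₁, hs.mem₂]

theorem IsFrobenial.smul_chartDiv {t₁ : SemilinearAut k F₁} {t₂ : SemilinearAut k F₂}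
    (hs : IsFrobenial D s Q t₁ t₂) (a b : ℤ) :
    s • D.chartDiv a b = D.chartDiv a b := by
  rw [NodalDatum.chartDiv, smul_add, S37lib.B3.smul_zsmul_divisor, S37lib.B3.smul_zsmul_divisor,
    hs.smul_P₁, hs.smul_P₂]

/-- `s` preserves the chart spaces -/
theorem IsFrobenial.smul_mem_rr {t₁ : SemilinearAut k F₁} {t₂ : SemilinearAut k F₂}
    (hs : IsFrobenial D s Q t₁ t₂) {n : ℤ} {a b : ℤ} {f : F}
    (hf : f ∈ riemannRochSpace (n • D.chartDiv a b)) :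
    s • f ∈ riemannRochSpace (n • D.chartDiv a b) := by
  have := S37lib.B3.smul_mem_riemannRochSpace s hf
  rwa [S37lib.B3.smul_zsmul_divisor, hs.smul_chartDiv] at this

theorem IsFrobenial.red₁_algebraMap {t₁ : SemilinearAut k F₁} {t₂ : SemilinearAut k F₂}
    (hs : IsFrobenial D s Q t₁ t₂) (b : k) :
    t₁ • (algebraMap k F₁ b) = algebraMap k F₁ (b ^ Q) := by
  rw [SemilinearAut.smul_algebraMap, hs.base₁]

theorem IsFrobenial.red₂_algebraMap {t₁ : SemilinearAut k F₁} {t₂ : SemilinearAut k F₂}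
    (hs : IsFrobenial D s Q t₁ t₂) (b : k) :
    t₂ • (algebraMap k F₂ b) = algebraMap k F₂ (b ^ Q) := by
  rw [SemilinearAut.smul_algebraMap, hs.base₂]

end FrobenialLemmas

/-! ### powers of Kummer units -/

theorem kummerUnit_mul {D : NodalDatum A F F₁ F₂} {n : ℕ} {u v : F}
    (hu : IsKummerUnit D n u) (hv : IsKummerUnit D n v) : IsKummerUnit D n (u * v) where
  ne_zero := mul_ne_zero hu.ne_zero hv.ne_zero
  dvd_ord P := by
    rw [P.ord_mul hu.ne_zero hv.ne_zero]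
    exact dvd_add (hu.dvd_ord P) (hv.dvd_ord P)
  red₁ := by
    obtain ⟨b, hb, h⟩ := hu.red₁
    obtain ⟨b', hb', h'⟩ := hv.red₁
    refine ⟨b * b', mul_ne_zero hb hb', ?_⟩
    rw [D.V₁.redF_mul hu.mem₁ hv.mem₁, h, h', map_mul]
  red₂ := by
    obtain ⟨b, hb, h⟩ := hu.red₂
    obtain ⟨b', hb', h'⟩ := hv.red₂
    refine ⟨b * b', mul_ne_zero hb hb', ?_⟩
    rw [D.V₂.redF_mul hu.mem₂ hv.mem₂, h, h', map_mul]

theorem kummerUnit_pow {D : NodalDatum A F F₁ F₂} {n : ℕ} {u : F}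
    (hu : IsKummerUnit D n u) (Q : ℕ) : IsKummerUnit D n (u ^ Q) := by
  induction Q with
  | zero => rw [pow_zero]; exact IsKummerUnit.one D n
  | succ Q ih => rw [pow_succ]; exact kummerUnit_mul ih hu

/-! ### C3: the twist of `s u / u ^ Q` is trivial -/

section Main

variable {D : NodalDatum A F F₁ F₂} {g g₁ g₂ : ℕ}

/-- `s u / u ^ Q` is a Kummer unit reducing to `(1, 1)` -/
theorem IsFrobenial.isKummerUnit_div {s : SemilinearAut L F} {Q : ℕ}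
    {t₁ : SemilinearAut k F₁} {t₂ : SemilinearAut k F₂}
    (hs : IsFrobenial D s Q t₁ t₂) {n : ℕ} {u : F} (hu : IsKummerUnit D n u) :
    IsKummerUnit D n (s • u * (u ^ Q)⁻¹) ∧ D.V₁.redF (s • u * (u ^ Q)⁻¹) = 1 ∧
      D.V₂.redF (s • u * (u ^ Q)⁻¹) = 1 := by
  have hsu0 : s • u ≠ 0 := by
    rw [SemilinearAut.smul_def]
    exact (map_ne_zero _).2 hu.ne_zero
  have huQ := kummerUnit_pow hu Q
  obtain ⟨b₁, hb₁0, hb₁⟩ := hu.red₁
  obtain ⟨b₂, hb₂0, hb₂⟩ := hu.red₂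
  have hQ₁ : D.V₁.redF (u ^ Q) = algebraMap k F₁ (b₁ ^ Q) := by
    rw [D.V₁.redF_pow hu.mem₁, hb₁, map_pow]
  have hQ₂ : D.V₂.redF (u ^ Q) = algebraMap k F₂ (b₂ ^ Q) := by
    rw [D.V₂.redF_pow hu.mem₂, hb₂, map_pow]
  have hne₁ : D.V₁.redF (u ^ Q) ≠ 0 := by
    rw [hQ₁]; exact (map_ne_zero _).2 (pow_ne_zero Q hb₁0)
  have hne₂ : D.V₂.redF (u ^ Q) ≠ 0 := by
    rw [hQ₂]; exact (map_ne_zero _).2 (pow_ne_zero Q hb₂0)
  have h1 : D.V₁.redF (s • u * (u ^ Q)⁻¹) = 1 := by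
    rw [D.V₁.redF_mul ((hs.mem₁ u).2 hu.mem₁) (D.V₁.inv_mem_of_redF_ne_zero hne₁),
      hs.red₁ u hu.mem₁, D.V₁.redF_inv hne₁, hb₁, hs.red₁_algebraMap, hQ₁,
      mul_inv_cancel₀ ((map_ne_zero _).2 (pow_ne_zero Q hb₁0))]
  have h2 : D.V₂.redF (s • u * (u ^ Q)⁻¹) = 1 := by
    rw [D.V₂.redF_mul ((hs.mem₂ u).2 hu.mem₂) (D.V₂.inv_mem_of_redF_ne_zero hne₂),
      hs.red₂ u hu.mem₂, D.V₂.redF_inv hne₂, hb₂, hs.red₂_algebraMap, hQ₂,
      mul_inv_cancel₀ ((map_ne_zero _).2 (pow_ne_zero Q hb₂0))]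
  refine ⟨⟨mul_ne_zero hsu0 (inv_ne_zero huQ.ne_zero), fun P => ?_, ⟨1, one_ne_zero, ?_⟩,
    ⟨1, one_ne_zero, ?_⟩⟩, h1, h2⟩
  · rw [P.ord_mul hsu0 (inv_ne_zero huQ.ne_zero), P.ord_inv,
      NodalDatum.IsInertial.ord_smul_eq]
    exact dvd_sub (hu.dvd_ord _) (huQ.dvd_ord _)
  · rw [h1, map_one]
  · rw [h2, map_one]

/-- **(C3a)** the twist of `z = s u / u ^ Q` is trivial. -/
theorem twist_eq_one_of_isFrobenial (C : NodalCtx D g g₁ g₂) {s : SemilinearAut L F} {Q : ℕ}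
    {t₁ : SemilinearAut k F₁} {t₂ : SemilinearAut k F₂}
    (hs : IsFrobenial D s Q t₁ t₂) {n : ℕ} (hn : 0 < n) {u : F}
    (hu : IsKummerUnit D n u) :
    (∀ a b : ℕ, ∀ h ∈ D.KLat n (s • u * (u ^ Q)⁻¹) a b,
      D.redF h ∈ Core.nodalSpace D.x₁ D.x₂ 1 (D.chartDiv₁ a b) (D.chartDiv₂ a b)) ∧
    (∀ a b : ℕ, D.Stable g₁ g₂ a b →
      ∀ φ ∈ Core.nodalSpace D.x₁ D.x₂ 1 (D.chartDiv₁ a b) (D.chartDiv₂ a b),
        ∃ h ∈ D.KLat n (s • u * (u ^ Q)⁻¹) a b, D.redF h = φ) := by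
  obtain ⟨hz, -, -⟩ := hs.isKummerUnit_div hu
  obtain ⟨lamu, -, -, Hequ⟩ := C.exists_twist_all hn hu
  obtain ⟨lamv, -, -, Heqv⟩ := C.exists_twist_all hn hu.inv
  obtain ⟨lamz, -, Hsubz, Heqz⟩ := C.exists_twist_all hn hz
  suffices hlam : lamz = 1 by
    rw [hlam] at Hsubz Heqz
    exact ⟨Hsubz, Heqz⟩
  funext c
  set m : ℕ := 2 * g₁ + 2 * g₂ + D.s with hm
  have hst : D.Stable g₁ g₂ (m : ℕ) (0 : ℕ) :=
    C.stable_of_le_fst (by rw [hm]; push_cast; exact le_rfl) (by simp)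
  -- the two generic sections
  obtain ⟨φ, hφ, hφval⟩ := Core.exists_mem_nodalSpace_valAt C.hF₁ C.hF₂ C.x₁_injective
    C.x₂_injective lamu (D.chartDiv₁ m (0 : ℕ)) (D.chartDiv₂ m (0 : ℕ)) (C.chartDiv₁_x₁ _ _)
    (C.chartDiv₂_x₂ _ _) hst.1 hst.2 (fun _ => 1)
  obtain ⟨φ', hφ', hφ'val⟩ := Core.exists_mem_nodalSpace_valAt C.hF₁ C.hF₂ C.x₁_injective
    C.x₂_injective lamv (D.chartDiv₁ m (0 : ℕ)) (D.chartDiv₂ m (0 : ℕ)) (C.chartDiv₁_x₁ _ _)
    (C.chartDiv₂_x₂ _ _) hst.1 hst.2 (fun _ => 1)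
  obtain ⟨h, hh, hhφ⟩ := Hequ m 0 hst φ hφ
  obtain ⟨h', hh', hh'φ⟩ := Heqv m 0 hst φ' hφ'
  -- regularity at the node `c`
  have r1 : φ.1 ∈ (D.x₁ c).toValuationSubring :=
    Core.mem_of_mem_rr (C.chartDiv₁_x₁ _ _ c).le hφ.1
  have r2 : φ.2 ∈ (D.x₂ c).toValuationSubring :=
    Core.mem_of_mem_rr (C.chartDiv₂_x₂ _ _ c).le hφ.2.1
  have r1' : φ'.1 ∈ (D.x₁ c).toValuationSubring :=
    Core.mem_of_mem_rr (C.chartDiv₁_x₁ _ _ c).le hφ'.1
  have r2' : φ'.2 ∈ (D.x₂ c).toValuationSubring :=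
    Core.mem_of_mem_rr (C.chartDiv₂_x₂ _ _ c).le hφ'.2.1
  have hO := NodalDatum.mem_O.1 hh.1
  have hO' := NodalDatum.mem_O.1 hh'.1
  have e1 : D.V₁.redF h = φ.1 := congrArg Prod.fst hhφ
  have e2 : D.V₂.redF h = φ.2 := congrArg Prod.snd hhφ
  have e1' : D.V₁.redF h' = φ'.1 := congrArg Prod.fst hh'φ
  have e2' : D.V₂.redF h' = φ'.2 := congrArg Prod.snd hh'φ
  -- the chart divisor `2m P₁`
  have hadd : (n : ℤ) • D.chartDiv (m : ℕ) (0 : ℕ) + (n : ℤ) • D.chartDiv (m : ℕ) (0 : ℕ) =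
      (n : ℤ) • D.chartDiv ((2 * m : ℕ) : ℕ) (0 : ℕ) := by
    rw [← smul_add]
    congr 1
    ext P
    rw [Finsupp.add_apply, D.chartDiv_apply, D.chartDiv_apply]
    push_cast
    ring
  -- `h h'` is glued untwisted
  have hp : (h * h') ∈ riemannRochSpace (D.chartDiv ((2 * m : ℕ) : ℕ) (0 : ℕ)) := by
    have h1 := S18lib.Cech.mul_mem_rr hh.2 hh'.2
    rw [hadd] at h1
    have e : h ^ n * u * (h' ^ n * u⁻¹) = (h * h') ^ n * 1 := by
      rw [mul_pow]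
      field_simp [hu.ne_zero]
    rw [e, pow_mul_mem_rr_iff hn one_ne_zero (E := 0) (fun P => by simp), zero_add] at h1
    exact h1
  obtain ⟨α, hα1, hα2⟩ := C.glue (2 * m) 0 (h * h') hp (D.V₁.O.mul_mem _ _ hO.1 hO'.1)
    (D.V₂.O.mul_mem _ _ hO.2 hO'.2) c
  have v1 : Core.valAt (D.x₁ c) (D.V₁.redF (h * h')) = α :=
    Core.valAt_eq_of_vanishAt (show Core.VanishAt _ _ from hα1)
  have v2 : Core.valAt (D.x₂ c) (D.V₂.redF (h * h')) = α :=
    Core.valAt_eq_of_vanishAt (show Core.VanishAt _ _ from hα2)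
  rw [D.V₁.redF_mul hO.1 hO'.1, e1, e1', Core.valAt_mul _ (C.hF₁.deg_eq_one _) r1 r1',
    (hφval c).1, (hφ'val c).1, one_mul] at v1
  rw [D.V₂.redF_mul hO.2 hO'.2, e2, e2', ← v1,
    Core.valAt_mul _ (C.hF₂.deg_eq_one _) r2 r2'] at v2
  -- the element `t = s(h) h' ^ Q` of `KLat n z ((1 + Q) m) 0`
  have hsO₁ : s • h ∈ D.V₁.O := (hs.mem₁ h).2 hO.1
  have hsO₂ : s • h ∈ D.V₂.O := (hs.mem₂ h).2 hO.2
  have hQO₁ : h' ^ Q ∈ D.V₁.O := D.V₁.O.pow_mem hO'.1 Q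
  have hQO₂ : h' ^ Q ∈ D.V₂.O := D.V₂.O.pow_mem hO'.2 Q
  have hadd' : (n : ℤ) • D.chartDiv (m : ℕ) (0 : ℕ) + Q • ((n : ℤ) • D.chartDiv (m : ℕ) (0 : ℕ)) =
      (n : ℤ) • D.chartDiv (((1 + Q) * m : ℕ) : ℕ) (0 : ℕ) := by
    ext P
    rw [Finsupp.add_apply, Finsupp.smul_apply, Finsupp.smul_apply, Finsupp.smul_apply,
      Finsupp.smul_apply, D.chartDiv_apply, D.chartDiv_apply]
    simp only [smul_eq_mul, nsmul_eq_mul]
    push_cast
    ring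
  have ht : s • h * h' ^ Q ∈ D.KLat n (s • u * (u ^ Q)⁻¹) (((1 + Q) * m : ℕ) : ℕ) (0 : ℕ) := by
    refine ⟨NodalDatum.mem_O.2 ⟨D.V₁.O.mul_mem _ _ hsO₁ hQO₁, D.V₂.O.mul_mem _ _ hsO₂ hQO₂⟩, ?_⟩
    have h1 := S18lib.Cech.mul_mem_rr (hs.smul_mem_rr hh.2) (S18lib.Cech.pow_mem_rr hh'.2 Q)
    rw [hadd'] at h1
    have e : s • (h ^ n * u) * (h' ^ n * u⁻¹) ^ Q =
        (s • h * h' ^ Q) ^ n * (s • u * (u ^ Q)⁻¹) := by
      rw [smul_mul', smul_pow', mul_pow, mul_pow, inv_pow]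
      ring
    rwa [e] at h1
  have hred := Hsubz ((1 + Q) * m) 0 _ ht
  have h3 := ((Core.gluedAt_iff C.hF₁.deg_eq_one C.hF₂.deg_eq_one c _ _).1 (hred.2.2 c)).2.2
  have f1 : (D.redF (s • h * h' ^ Q)).1 = t₁ • φ.1 * φ'.1 ^ Q := by
    show D.V₁.redF (s • h * h' ^ Q) = _
    rw [D.V₁.redF_mul hsO₁ hQO₁, hs.red₁ h hO.1, D.V₁.redF_pow hO'.1, e1, e1']
  have f2 : (D.redF (s • h * h' ^ Q)).2 = t₂ • φ.2 * φ'.2 ^ Q := by
    show D.V₂.redF (s • h * h' ^ Q) = _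
    rw [D.V₂.redF_mul hsO₂ hQO₂, hs.red₂ h hO.2, D.V₂.redF_pow hO'.2, e2, e2']
  have g1 : Core.valAt (D.x₁ c) (t₁ • φ.1 * φ'.1 ^ Q) = 1 := by
    rw [Core.valAt_mul _ (C.hF₁.deg_eq_one _) (smul_mem_of_fixed t₁ (hs.smul_x₁ c) r1)
      ((D.x₁ c).toValuationSubring.pow_mem r1' Q),
      valAt_smul_of_fixed t₁ (hs.smul_x₁ c) (C.hF₁.deg_eq_one _) r1,
      Core.valAt_pow _ (C.hF₁.deg_eq_one _) r1', (hφval c).1, (hφ'val c).1, hs.base₁]
    simp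
  have g2 : Core.valAt (D.x₂ c) (t₂ • φ.2 * φ'.2 ^ Q) = 1 := by
    rw [Core.valAt_mul _ (C.hF₂.deg_eq_one _) (smul_mem_of_fixed t₂ (hs.smul_x₂ c) r2)
      ((D.x₂ c).toValuationSubring.pow_mem r2' Q),
      valAt_smul_of_fixed t₂ (hs.smul_x₂ c) (C.hF₂.deg_eq_one _) r2,
      Core.valAt_pow _ (C.hF₂.deg_eq_one _) r2', hs.base₂, ← mul_pow, v2]
    simp
  rw [f1, f2, g1, g2] at h3
  simpa using h3.symm

/-- **(C3)** for a Kummer unit `u` and a Frobenial `s` of exponent `Q`, the function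
`s u / u ^ Q` is a constant times an `n`-th power. -/
theorem exists_eq_const_mul_pow_of_isFrobenial (C : NodalCtx D g g₁ g₂)
    (hcech : CechCoreStatement D g₁ g₂) {s : SemilinearAut L F} {Q : ℕ}
    {t₁ : SemilinearAut k F₁} {t₂ : SemilinearAut k F₂}
    (hs : IsFrobenial D s Q t₁ t₂) {n : ℕ} (hn : (n : k) ≠ 0) {u : F}
    (hu : IsKummerUnit D n u) :
    ∃ (h : F) (c : L), h ≠ 0 ∧ c ≠ 0 ∧ s • u * (u ^ Q)⁻¹ = algebraMap L F c * h ^ n := by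
  have hn0 : n ≠ 0 := by
    rintro rfl
    exact hn (by simp)
  obtain ⟨hKz, hz₁, hz₂⟩ := hs.isKummerUnit_div hu
  obtain ⟨Hsub, Heq⟩ := twist_eq_one_of_isFrobenial C hs (Nat.pos_of_ne_zero hn0) hu
  exact hcech n hn _ hKz hz₁ hz₂ Hsub Heq

end Main

end Fermat.Agent.LSc
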