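/-
LSc / Core / BiUnit  (helper8)

Bricks C1 + C2 of route FN.

* `IsBiUnit D f` : `f` is a unit of BOTH Gauss valuation rings of the nodal datum.
* C1 `exists_biUnit` : every `f ≠ 0` becomes a bi-unit after multiplication by a constant and an
  `n`-th power (value group of `A` `n`-divisible, rank one, `O₁ ≠ O₂`).
* C2 `exists_kummerUnit_of_red` : a bi-unit `g` with `n ∣ div g` whose two reductions are
  constants times `n`-th powers is a Kummer unit times an `n`-th power.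

Both are consequences of helper2's approximation lemmas `LSb/Frame/Approx`.
-/
import Fermat.Agent.LSb.Frame.Approx
import Fermat.Agent.LSc.Core.Frobenial

set_option autoImplicit false

noncomputable section

namespace Fermat.Agent.LSc

open AlgebraicCurve Module Fermat.Agent.LSb Fermat.Agent.S18lib

variable {L : Type*} [Field L] {A : ValuationSubring L}
variable {F : Type*} [Field F] [Algebra L F]
variable {F₁ F₂ : Type*} [Field F₁] [Field F₂]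
variable [Algebra (IsLocalRing.ResidueField A) F₁] [Algebra (IsLocalRing.ResidueField A) F₂]

local notation "k" => IsLocalRing.ResidueField A

/-- `f` is a unit of both Gauss valuation rings -/
def IsBiUnit (D : NodalDatum A F F₁ F₂) (f : F) : Prop :=
  D.V₁.redF f ≠ 0 ∧ D.V₂.redF f ≠ 0

namespace IsBiUnit

variable {D : NodalDatum A F F₁ F₂} {f g : F}

theorem mem₁ (h : IsBiUnit D f) : f ∈ D.V₁.O := D.V₁.mem_of_redF_ne_zero h.1

theorem mem₂ (h : IsBiUnit D f) : f ∈ D.V₂.O := D.V₂.mem_of_redF_ne_zero h.2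

theorem ne_zero (h : IsBiUnit D f) : f ≠ 0 := by
  rintro rfl
  exact h.1 D.V₁.redF_zero

theorem mul (hf : IsBiUnit D f) (hg : IsBiUnit D g) : IsBiUnit D (f * g) :=
  ⟨by rw [D.V₁.redF_mul hf.mem₁ hg.mem₁]; exact mul_ne_zero hf.1 hg.1,
   by rw [D.V₂.redF_mul hf.mem₂ hg.mem₂]; exact mul_ne_zero hf.2 hg.2⟩

theorem inv (hf : IsBiUnit D f) : IsBiUnit D f⁻¹ :=
  ⟨by rw [D.V₁.redF_inv hf.1]; exact inv_ne_zero hf.1,
   by rw [D.V₂.redF_inv hf.2]; exact inv_ne_zero hf.2⟩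

theorem pow (hf : IsBiUnit D f) (n : ℕ) : IsBiUnit D (f ^ n) :=
  ⟨by rw [D.V₁.redF_pow hf.mem₁]; exact pow_ne_zero n hf.1,
   by rw [D.V₂.redF_pow hf.mem₂]; exact pow_ne_zero n hf.2⟩

end IsBiUnit

theorem isBiUnit_of_isKummerUnit {D : NodalDatum A F F₁ F₂} {n : ℕ} {u : F}
    (hu : IsKummerUnit D n u) : IsBiUnit D u := by
  obtain ⟨b₁, hb₁, h₁⟩ := hu.red₁
  obtain ⟨b₂, hb₂, h₂⟩ := hu.red₂
  exact ⟨by rw [h₁]; exact (map_ne_zero _).2 hb₁, by rw [h₂]; exact (map_ne_zero _).2 hb₂⟩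

/-! ### C1: bi-unit normalisation -/

section C1

variable {D : NodalDatum A F F₁ F₂}

/-- for every constant `d ≠ 0` there is a function which is a unit of `O₁` and `d` times a unit
of `O₂` -/
theorem exists_unit_left_const_right (hA : Frame.RankOneDvd A) (hne : D.V₁.O ≠ D.V₂.O)
    {d : L} (hd : d ≠ 0) :
    ∃ h : F, h ≠ 0 ∧ D.V₁.redF h ≠ 0 ∧ D.V₂.redF (algebraMap L F d⁻¹ * h) ≠ 0 := by
  obtain ⟨a, ha₁, ha₂, hra₁, hra₂⟩ := Frame.exists_lift_pair hA hne (1 : F₁) (0 : F₂)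
  obtain ⟨b, hb₁, hb₂, hrb₁, hrb₂⟩ := Frame.exists_lift_pair hA hne (0 : F₁) (1 : F₂)
  have hdF : algebraMap L F d ≠ 0 := (map_ne_zero _).2 hd
  rcases A.mem_or_inv_mem d with hdA | hdA
  · -- `d ∈ A` : `h = a ^ N + d b`
    obtain ⟨N, hN, hNx⟩ := Frame.exists_pow_mul_inMax (D := D.V₂) hA ⟨ha₂, hra₂⟩
      (algebraMap L F d⁻¹)
    have hdO₁ : algebraMap L F d ∈ D.V₁.O := D.V₁.algebraMap_mem ⟨d, hdA⟩
    have h1 : D.V₁.redF (a ^ N + algebraMap L F d * b) = 1 := by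
      rw [D.V₁.redF_add (D.V₁.O.pow_mem ha₁ N) (D.V₁.O.mul_mem _ _ hdO₁ hb₁),
        D.V₁.redF_pow ha₁, hra₁, one_pow, D.V₁.redF_mul hdO₁ hb₁, hrb₁, mul_zero, add_zero]
    have e : algebraMap L F d⁻¹ * (a ^ N + algebraMap L F d * b) =
        a ^ N * algebraMap L F d⁻¹ + b := by
      rw [map_inv₀]
      field_simp
    have h2 : D.V₂.redF (algebraMap L F d⁻¹ * (a ^ N + algebraMap L F d * b)) = 1 := by
      rw [e, D.V₂.redF_add hNx.1 hb₂, hNx.2, hrb₂, zero_add]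
    refine ⟨a ^ N + algebraMap L F d * b, ?_, by rw [h1]; exact one_ne_zero,
      by rw [h2]; exact one_ne_zero⟩
    rintro h0
    rw [h0, D.V₁.redF_zero] at h1
    exact zero_ne_one h1
  · -- `d⁻¹ ∈ A` : `h = d (b ^ N + d⁻¹ a)`
    obtain ⟨N, hN, hNx⟩ := Frame.exists_pow_mul_inMax (D := D.V₁) hA ⟨hb₁, hrb₁⟩
      (algebraMap L F d)
    have hdO₂ : algebraMap L F d⁻¹ ∈ D.V₂.O := D.V₂.algebraMap_mem ⟨d⁻¹, hdA⟩
    have e1 : algebraMap L F d * (b ^ N + algebraMap L F d⁻¹ * a) =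
        b ^ N * algebraMap L F d + a := by
      rw [map_inv₀]
      field_simp
    have h1 : D.V₁.redF (algebraMap L F d * (b ^ N + algebraMap L F d⁻¹ * a)) = 1 := by
      rw [e1, D.V₁.redF_add hNx.1 ha₁, hNx.2, hra₁, zero_add]
    have e2 : algebraMap L F d⁻¹ * (algebraMap L F d * (b ^ N + algebraMap L F d⁻¹ * a)) =
        b ^ N + algebraMap L F d⁻¹ * a := by
      rw [map_inv₀, ← mul_assoc, inv_mul_cancel₀ hdF, one_mul]
    have h2 : D.V₂.redF (algebraMap L F d⁻¹ *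
        (algebraMap L F d * (b ^ N + algebraMap L F d⁻¹ * a))) = 1 := by
      rw [e2, D.V₂.redF_add (D.V₂.O.pow_mem hb₂ N) (D.V₂.O.mul_mem _ _ hdO₂ ha₂),
        D.V₂.redF_pow hb₂, hrb₂, one_pow, D.V₂.redF_mul hdO₂ ha₂, hra₂, mul_zero, add_zero]
    refine ⟨algebraMap L F d * (b ^ N + algebraMap L F d⁻¹ * a), ?_,
      by rw [h1]; exact one_ne_zero, by rw [h2]; exact one_ne_zero⟩
    rintro h0
    rw [h0, D.V₁.redF_zero] at h1
    exact zero_ne_one h1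

/-- **(C1)** every nonzero function is a bi-unit up to a constant and an `n`-th power. -/
theorem exists_biUnit (hA : Frame.RankOneDvd A) (hne : D.V₁.O ≠ D.V₂.O) {n : ℕ} (hn : 0 < n)
    (hroot : ∀ c : L, ∃ d : L, d ^ n = c) {f : F} (hf : f ≠ 0) :
    ∃ (c : L) (h : F), c ≠ 0 ∧ h ≠ 0 ∧ IsBiUnit D (algebraMap L F c * h ^ n * f) := by
  obtain ⟨c₁, hc₁, hr₁⟩ := D.V₁.exists_const_mul_redF_ne_zero hf
  obtain ⟨c₂, hc₂, hr₂⟩ := D.V₂.exists_const_mul_redF_ne_zero hf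
  -- `d ^ n = c₂ / c₁`
  obtain ⟨d, hd⟩ := hroot (c₂ / c₁)
  have hd0 : d ≠ 0 := by
    rintro rfl
    rw [zero_pow hn.ne'] at hd
    exact div_ne_zero hc₂ hc₁ hd.symm
  obtain ⟨h, hh0, hh₁, hh₂⟩ := exists_unit_left_const_right (D := D) hA hne hd0
  refine ⟨c₁, h, hc₁, hh0, ?_, ?_⟩
  · have e : algebraMap L F c₁ * h ^ n * f = h ^ n * (algebraMap L F c₁ * f) := by ring
    rw [e, D.V₁.redF_mul (D.V₁.O.pow_mem (D.V₁.mem_of_redF_ne_zero hh₁) n)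
      (D.V₁.mem_of_redF_ne_zero hr₁), D.V₁.redF_pow (D.V₁.mem_of_redF_ne_zero hh₁)]
    exact mul_ne_zero (pow_ne_zero n hh₁) hr₁
  · have hc₂F : algebraMap L F c₂ ≠ 0 := (map_ne_zero _).2 hc₂
    have hdF : algebraMap L F d ≠ 0 := (map_ne_zero _).2 hd0
    have e : algebraMap L F c₁ * h ^ n * f =
        (algebraMap L F d⁻¹ * h) ^ n * (algebraMap L F c₂ * f) := by
      have : algebraMap L F c₂ = algebraMap L F d ^ n * algebraMap L F c₁ := by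
        rw [← map_pow, hd, ← map_mul, div_mul_cancel₀ c₂ hc₁]
      rw [this, mul_pow, map_inv₀, inv_pow]
      field_simp
    have hm := D.V₂.mem_of_redF_ne_zero hh₂
    rw [e, D.V₂.redF_mul (D.V₂.O.pow_mem hm n) (D.V₂.mem_of_redF_ne_zero hr₂),
      D.V₂.redF_pow hm]
    exact mul_ne_zero (pow_ne_zero n hh₂) hr₂

end C1

/-! ### C2: from "constants times `n`-th powers" to Kummer units -/

section C2

variable {D : NodalDatum A F F₁ F₂}

/-- **(C2)** a function with `n ∣ div g` whose two reductions are nonzero constants times `n`-th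
powers is a Kummer unit times the `n`-th power of a bi-unit. -/
theorem exists_kummerUnit_of_red (hA : Frame.RankOneDvd A) (hne : D.V₁.O ≠ D.V₂.O) {n : ℕ}
    {g : F} (hg0 : g ≠ 0) (hdiv : ∀ P : Place L F, (n : ℤ) ∣ P.ord g)
    (h₁ : ∃ (c : k) (w : F₁), c ≠ 0 ∧ w ≠ 0 ∧ D.V₁.redF g = algebraMap k F₁ c * w ^ n)
    (h₂ : ∃ (c : k) (w : F₂), c ≠ 0 ∧ w ≠ 0 ∧ D.V₂.redF g = algebraMap k F₂ c * w ^ n) :
    ∃ h₀ : F, IsBiUnit D h₀ ∧ IsKummerUnit D n (g * (h₀ ^ n)⁻¹) := by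
  obtain ⟨c₁, w₁, hc₁, hw₁, hr₁⟩ := h₁
  obtain ⟨c₂, w₂, hc₂, hw₂, hr₂⟩ := h₂
  obtain ⟨h₀, hm₁, hm₂, hw₁', hw₂'⟩ := Frame.exists_lift_pair hA hne w₁ w₂
  have hb : IsBiUnit D h₀ := ⟨by rw [hw₁']; exact hw₁, by rw [hw₂']; exact hw₂⟩
  have hbn := (hb.pow n).inv
  have hg₁ : D.V₁.redF g ≠ 0 := by
    rw [hr₁]; exact mul_ne_zero ((map_ne_zero _).2 hc₁) (pow_ne_zero n hw₁)
  have hg₂ : D.V₂.redF g ≠ 0 := by
    rw [hr₂]; exact mul_ne_zero ((map_ne_zero _).2 hc₂) (pow_ne_zero n hw₂)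
  refine ⟨h₀, hb, ⟨mul_ne_zero hg0 hbn.ne_zero, fun P => ?_, ⟨c₁, hc₁, ?_⟩, ⟨c₂, hc₂, ?_⟩⟩⟩
  · rw [P.ord_mul hg0 hbn.ne_zero, P.ord_inv, S18lib.Cech.ord_pow]
    exact dvd_add (hdiv P) (dvd_neg.2 (dvd_mul_right _ _))
  · rw [D.V₁.redF_mul (D.V₁.mem_of_redF_ne_zero hg₁) hbn.mem₁, D.V₁.redF_inv (hb.pow n).1,
      D.V₁.redF_pow hb.mem₁, hw₁', hr₁, mul_assoc, mul_inv_cancel₀ (pow_ne_zero n hw₁), mul_one]
  · rw [D.V₂.redF_mul (D.V₂.mem_of_redF_ne_zero hg₂) hbn.mem₂, D.V₂.redF_inv (hb.pow n).2,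
      D.V₂.redF_pow hb.mem₂, hw₂', hr₂, mul_assoc, mul_inv_cancel₀ (pow_ne_zero n hw₂), mul_one]

end C2

end Fermat.Agent.LSc
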