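/-
LSc / Core / FrobNew  (helper8)

Brick C5 of route FN: the ABSTRACT form of "Frobenius on the new classes".

Setting: a nodal datum `D` with `NodalCtx`, helper6's Čech core, a Frobenial automorphism `s` of
exponent `Q` (modular case: `s = σ²`, `Q = q²`), two ring isomorphisms `S₁₂ : F₁ ≃ F₂`,
`S₂₁ : F₂ ≃ F₁` with `S₂₁ ∘ S₁₂ = t₁`, `S₁₂ ∘ S₂₁ = t₂` (modular case: both are the coefficientwise
`q`-Frobenius `σ̄` of `FRes A M'`), and a class `x = [D₀]`, `n D₀ = div f`, `f` a bi-unit, with the two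
DEGENERACY RELATIONS

  (α)  `red₁ f · S₂₁ (red₂ f) ∈ kˣ · (F₁ˣ)ⁿ`,      (β)  `red₂ f · S₁₂ (red₁ f) ∈ kˣ · (F₂ˣ)ⁿ`

(modular case: consequences of `α_* x = 0`, `β_* x = 0` and the norm–reduction lemma C4).
Conclusion: `(s - Q)(s - 1) x = 0` in `Pic⁰(F)`.
-/
import Fermat.Agent.LSc.Core.BiUnit

set_option autoImplicit false

noncomputable section

namespace Fermat.Agent.LSc

open AlgebraicCurve Module Fermat.Agent.LSb Fermat.Agent.S18lib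

variable {L : Type*} [Field L] {A : ValuationSubring L}
variable {F : Type*} [Field F] [Algebra L F]
variable {F₁ F₂ : Type*} [Field F₁] [Field F₂]
variable [Algebra (IsLocalRing.ResidueField A) F₁] [Algebra (IsLocalRing.ResidueField A) F₂]

local notation "k" => IsLocalRing.ResidueField A

/-- `y ∈ kˣ · (Fkˣ)ⁿ` -/
def IsConstMulPow {Fk : Type*} [Field Fk] [Algebra (IsLocalRing.ResidueField A) Fk] (n : ℕ)
    (y : Fk) : Prop :=
  ∃ (c : IsLocalRing.ResidueField A) (w : Fk), c ≠ 0 ∧ w ≠ 0 ∧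
    y = algebraMap (IsLocalRing.ResidueField A) Fk c * w ^ n

section ConstMulPow

variable {Fk : Type*} [Field Fk] [Algebra (IsLocalRing.ResidueField A) Fk] {n : ℕ}

theorem IsConstMulPow.ne_zero {y : Fk} (h : IsConstMulPow (A := A) n y) : y ≠ 0 := by
  obtain ⟨c, w, hc, hw, rfl⟩ := h
  exact mul_ne_zero ((map_ne_zero _).2 hc) (pow_ne_zero n hw)

theorem IsConstMulPow.div {y z : Fk} (hy : IsConstMulPow (A := A) n y)
    (hz : IsConstMulPow (A := A) n z) : IsConstMulPow (A := A) n (y / z) := by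
  obtain ⟨c, w, hc, hw, rfl⟩ := hy
  obtain ⟨c', w', hc', hw', rfl⟩ := hz
  refine ⟨c / c', w / w', div_ne_zero hc hc', div_ne_zero hw hw', ?_⟩
  rw [map_div₀, div_pow]
  field_simp

end ConstMulPow

/-- transport of `IsConstMulPow` along a ring isomorphism mapping constants to constants -/
theorem IsConstMulPow.map {Fk Fk' : Type*} [Field Fk] [Field Fk']
    [Algebra (IsLocalRing.ResidueField A) Fk] [Algebra (IsLocalRing.ResidueField A) Fk']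
    {n : ℕ} (S : Fk ≃+* Fk')
    (hS : ∀ c : k, c ≠ 0 → ∃ c' : k, c' ≠ 0 ∧ S (algebraMap k Fk c) = algebraMap k Fk' c')
    {y : Fk} (hy : IsConstMulPow (A := A) n y) : IsConstMulPow (A := A) n (S y) := by
  obtain ⟨c, w, hc, hw, rfl⟩ := hy
  obtain ⟨c', hc', hcc'⟩ := hS c hc
  exact ⟨c', S w, hc', (map_ne_zero_iff _ S.injective).2 hw, by rw [map_mul, map_pow, hcc']⟩

/-- the multiplicative bookkeeping identity of C5 -/
theorem frob_quot_identity {E : Type*} [Field E] (φ : E ≃+* E) (n Q : ℕ) {x y : E} (hx : x ≠ 0)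
    (hy : y ≠ 0) :
    φ x * (x ^ Q)⁻¹ =
      (φ (x * (y ^ n)⁻¹) * ((x * (y ^ n)⁻¹) ^ Q)⁻¹) * (φ y * (y ^ Q)⁻¹) ^ n := by
  have hφy : φ y ≠ 0 := (map_ne_zero_iff _ φ.injective).2 hy
  rw [map_mul, map_inv₀, map_pow]
  field_simp
  ring

section Main

variable {D : NodalDatum A F F₁ F₂} {g g₁ g₂ : ℕ}

/-- **(C5), function level.** -/
theorem frobNew_function (C : NodalCtx D g g₁ g₂) (hcech : CechCoreStatement D g₁ g₂)
    (hne : D.V₁.O ≠ D.V₂.O) {s : SemilinearAut L F} {Q : ℕ}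
    {t₁ : SemilinearAut k F₁} {t₂ : SemilinearAut k F₂} (hs : IsFrobenial D s Q t₁ t₂)
    (S₁₂ : F₁ ≃+* F₂) (S₂₁ : F₂ ≃+* F₁)
    (h12 : ∀ y : F₁, S₂₁ (S₁₂ y) = t₁ • y) (h21 : ∀ y : F₂, S₁₂ (S₂₁ y) = t₂ • y)
    (hk₁₂ : ∀ c : k, c ≠ 0 → ∃ c' : k, c' ≠ 0 ∧ S₁₂ (algebraMap k F₁ c) = algebraMap k F₂ c')
    (hk₂₁ : ∀ c : k, c ≠ 0 → ∃ c' : k, c' ≠ 0 ∧ S₂₁ (algebraMap k F₂ c) = algebraMap k F₁ c')
    {n : ℕ} (hn : (n : k) ≠ 0) {f : F} (hf : IsBiUnit D f)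
    (hdiv : ∀ P : Place L F, (n : ℤ) ∣ P.ord f)
    (hα : IsConstMulPow (A := A) n (D.V₁.redF f * S₂₁ (D.V₂.redF f)))
    (hβ : IsConstMulPow (A := A) n (D.V₂.redF f * S₁₂ (D.V₁.redF f))) :
    ∃ (h : F) (c : L), h ≠ 0 ∧ c ≠ 0 ∧
      s • (s • f * f⁻¹) * ((s • f * f⁻¹) ^ Q)⁻¹ = algebraMap L F c * h ^ n := by
  have hA : Frame.RankOneDvd A := C.rankOne
  have hf0 := hf.ne_zero
  have hsf0 : s • f ≠ 0 := by
    rw [SemilinearAut.smul_def]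
    exact (map_ne_zero _).2 hf0
  set gg : F := s • f * f⁻¹ with hgg
  have hgg0 : gg ≠ 0 := mul_ne_zero hsf0 (inv_ne_zero hf0)
  -- reductions of `gg`
  have hr₁ : D.V₁.redF gg = t₁ • D.V₁.redF f / D.V₁.redF f := by
    rw [hgg, D.V₁.redF_mul ((hs.mem₁ f).2 hf.mem₁) (D.V₁.inv_mem_of_redF_ne_zero hf.1),
      hs.red₁ f hf.mem₁, D.V₁.redF_inv hf.1, div_eq_mul_inv]
  have hr₂ : D.V₂.redF gg = t₂ • D.V₂.redF f / D.V₂.redF f := by
    rw [hgg, D.V₂.redF_mul ((hs.mem₂ f).2 hf.mem₂) (D.V₂.inv_mem_of_redF_ne_zero hf.2),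
      hs.red₂ f hf.mem₂, D.V₂.redF_inv hf.2, div_eq_mul_inv]
  -- they are constants times `n`-th powers
  have hS₂₁ne : S₂₁ (D.V₂.redF f) ≠ 0 := (map_ne_zero_iff _ S₂₁.injective).2 hf.2
  have hS₁₂ne : S₁₂ (D.V₁.redF f) ≠ 0 := (map_ne_zero_iff _ S₁₂.injective).2 hf.1
  have hc₁ : IsConstMulPow (A := A) n (D.V₁.redF gg) := by
    have h1 := IsConstMulPow.map S₂₁ hk₂₁ hβ
    rw [map_mul, h12] at h1
    have h2 := h1.div hα
    have e : S₂₁ (D.V₂.redF f) * t₁ • D.V₁.redF f / (D.V₁.redF f * S₂₁ (D.V₂.redF f)) =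
        t₁ • D.V₁.redF f / D.V₁.redF f := by
      field_simp
    rwa [e, ← hr₁] at h2
  have hc₂ : IsConstMulPow (A := A) n (D.V₂.redF gg) := by
    have h1 := IsConstMulPow.map S₁₂ hk₁₂ hα
    rw [map_mul, h21] at h1
    have h2 := h1.div hβ
    have e : S₁₂ (D.V₁.redF f) * t₂ • D.V₂.redF f / (D.V₂.redF f * S₁₂ (D.V₁.redF f)) =
        t₂ • D.V₂.redF f / D.V₂.redF f := by
      field_simp
    rwa [e, ← hr₂] at h2
  -- `n ∣ div gg`
  have hdivg : ∀ P : Place L F, (n : ℤ) ∣ P.ord gg := by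
    intro P
    rw [hgg, P.ord_mul hsf0 (inv_ne_zero hf0), P.ord_inv, NodalDatum.IsInertial.ord_smul_eq]
    exact dvd_add (hdiv _) (dvd_neg.2 (hdiv _))
  -- C2 and C3
  obtain ⟨h₀, hb₀, hu⟩ := exists_kummerUnit_of_red hA hne hgg0 hdivg hc₁ hc₂
  obtain ⟨h, c, hh0, hc0, hz⟩ := exists_eq_const_mul_pow_of_isFrobenial C hcech hs hn hu
  have hh₀0 := hb₀.ne_zero
  have hsh₀0 : s • h₀ ≠ 0 := by
    rw [SemilinearAut.smul_def]
    exact (map_ne_zero _).2 hh₀0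
  refine ⟨h * (s • h₀ * (h₀ ^ Q)⁻¹), c, mul_ne_zero hh0
    (mul_ne_zero hsh₀0 (inv_ne_zero (pow_ne_zero Q hh₀0))), hc0, ?_⟩
  have e : s • gg * (gg ^ Q)⁻¹ =
      (s • (gg * (h₀ ^ n)⁻¹) * ((gg * (h₀ ^ n)⁻¹) ^ Q)⁻¹) * (s • h₀ * (h₀ ^ Q)⁻¹) ^ n :=
    frob_quot_identity (SemilinearAut.toRingAut s) n Q hgg0 hh₀0
  rw [e, hz]
  ring

/-- **(C5), divisor level.**  If `n D₀ = div f` for a bi-unit `f` satisfying the two degeneracy
relations, then `(s - Q)(s - 1) D₀` is principal. -/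
theorem frobNew_divisor (C : NodalCtx D g g₁ g₂) (hcech : CechCoreStatement D g₁ g₂)
    (hne : D.V₁.O ≠ D.V₂.O) {s : SemilinearAut L F} {Q : ℕ}
    {t₁ : SemilinearAut k F₁} {t₂ : SemilinearAut k F₂} (hs : IsFrobenial D s Q t₁ t₂)
    (S₁₂ : F₁ ≃+* F₂) (S₂₁ : F₂ ≃+* F₁)
    (h12 : ∀ y : F₁, S₂₁ (S₁₂ y) = t₁ • y) (h21 : ∀ y : F₂, S₁₂ (S₂₁ y) = t₂ • y)
    (hk₁₂ : ∀ c : k, c ≠ 0 → ∃ c' : k, c' ≠ 0 ∧ S₁₂ (algebraMap k F₁ c) = algebraMap k F₂ c')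
    (hk₂₁ : ∀ c : k, c ≠ 0 → ∃ c' : k, c' ≠ 0 ∧ S₂₁ (algebraMap k F₂ c) = algebraMap k F₁ c')
    {n : ℕ} (hn : (n : k) ≠ 0) {f : F} (hf : IsBiUnit D f) {D₀ : Divisor L F}
    (hfdiv : ∀ P : Place L F, P.ord f = (n : ℤ) * D₀ P)
    (hα : IsConstMulPow (A := A) n (D.V₁.redF f * S₂₁ (D.V₂.redF f)))
    (hβ : IsConstMulPow (A := A) n (D.V₂.redF f * S₁₂ (D.V₁.redF f))) :
    s • (s • D₀ - D₀) - (Q : ℤ) • (s • D₀ - D₀) ∈ Divisor.principal (K := L) (F := F) := by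
  have hn0 : n ≠ 0 := by
    rintro rfl
    exact hn (by simp)
  have hnZ : (n : ℤ) ≠ 0 := by exact_mod_cast hn0
  obtain ⟨h, c, hh0, hc0, hz⟩ := frobNew_function C hcech hne hs S₁₂ S₂₁ h12 h21 hk₁₂ hk₂₁ hn hf
    (fun P => ⟨D₀ P, hfdiv P⟩) hα hβ
  have hf0 := hf.ne_zero
  have hsf0 : s • f ≠ 0 := by
    rw [SemilinearAut.smul_def]
    exact (map_ne_zero _).2 hf0
  set gg : F := s • f * f⁻¹ with hgg
  have hgg0 : gg ≠ 0 := mul_ne_zero hsf0 (inv_ne_zero hf0)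
  have hsgg0 : s • gg ≠ 0 := by
    rw [SemilinearAut.smul_def]
    exact (map_ne_zero _).2 hgg0
  set E₁ : Divisor L F := s • D₀ - D₀ with hE₁
  have hgdiv : ∀ P : Place L F, P.ord gg = (n : ℤ) * E₁ P := by
    intro P
    rw [hgg, P.ord_mul hsf0 (inv_ne_zero hf0), P.ord_inv, NodalDatum.IsInertial.ord_smul_eq,
      hfdiv, hfdiv, hE₁, Finsupp.sub_apply, SemilinearAut.divisor_smul_apply]
    ring
  refine ⟨h, hh0, fun P => ?_⟩
  have h1 : P.ord (s • gg * (gg ^ Q)⁻¹) = (n : ℤ) * P.ord h := by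
    rw [hz, P.ord_mul ((map_ne_zero _).2 hc0) (pow_ne_zero n hh0), S18lib.Cech.ord_const,
      S18lib.Cech.ord_pow, zero_add]
  rw [P.ord_mul hsgg0 (inv_ne_zero (pow_ne_zero Q hgg0)), P.ord_inv, S18lib.Cech.ord_pow,
    NodalDatum.IsInertial.ord_smul_eq, hgdiv, hgdiv] at h1
  rw [Finsupp.sub_apply, Finsupp.smul_apply, SemilinearAut.divisor_smul_apply, smul_eq_mul]
  have h2 : (n : ℤ) * (E₁ (s⁻¹ • P) - (Q : ℤ) * E₁ P) = (n : ℤ) * P.ord h := by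
    rw [← h1]; ring
  exact mul_left_cancel₀ hnZ h2

/-- **(C5), `Pic⁰` level: the abstract form of FN.**  For a class `x` killed by `n` such that
EVERY bi-unit Kummer representative `f` of `x` satisfies the two degeneracy relations:
`(s - Q)(s - 1) x = 0`. -/
theorem frobNew_pic0 (C : NodalCtx D g g₁ g₂) (hcech : CechCoreStatement D g₁ g₂)
    (hne : D.V₁.O ≠ D.V₂.O) {s : SemilinearAut L F} {Q : ℕ}
    {t₁ : SemilinearAut k F₁} {t₂ : SemilinearAut k F₂} (hs : IsFrobenial D s Q t₁ t₂)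
    (S₁₂ : F₁ ≃+* F₂) (S₂₁ : F₂ ≃+* F₁)
    (h12 : ∀ y : F₁, S₂₁ (S₁₂ y) = t₁ • y) (h21 : ∀ y : F₂, S₁₂ (S₂₁ y) = t₂ • y)
    (hk₁₂ : ∀ c : k, c ≠ 0 → ∃ c' : k, c' ≠ 0 ∧ S₁₂ (algebraMap k F₁ c) = algebraMap k F₂ c')
    (hk₂₁ : ∀ c : k, c ≠ 0 → ∃ c' : k, c' ≠ 0 ∧ S₂₁ (algebraMap k F₂ c) = algebraMap k F₁ c')
    {n : ℕ} (hn : (n : k) ≠ 0) (hroot : ∀ c : L, ∃ d : L, d ^ n = c)
    (x : Pic0 L F) (hx : n • x = 0)
    (Hα : ∀ (D₀ : Divisor.degZero (K := L) (F := F)) (f : F), x = Pic0.mk D₀ → IsBiUnit D f →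
      (∀ P : Place L F, P.ord f = (n : ℤ) * (D₀ : Divisor L F) P) →
        IsConstMulPow (A := A) n (D.V₁.redF f * S₂₁ (D.V₂.redF f)))
    (Hβ : ∀ (D₀ : Divisor.degZero (K := L) (F := F)) (f : F), x = Pic0.mk D₀ → IsBiUnit D f →
      (∀ P : Place L F, P.ord f = (n : ℤ) * (D₀ : Divisor L F) P) →
        IsConstMulPow (A := A) n (D.V₂.redF f * S₁₂ (D.V₁.redF f))) :
    s • (s • x - x) = (Q : ℤ) • (s • x - x) := by
  have := C.hF.hasPrincipalDivisors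
  have hn0 : n ≠ 0 := by
    rintro rfl
    exact hn (by simp)
  have hnpos : 0 < n := Nat.pos_of_ne_zero hn0
  obtain ⟨D₀, rfl⟩ := Pic0.mk_surjective x
  -- `n D₀` is principal
  have hprinc : n • (D₀ : Divisor L F) ∈ Divisor.principal (K := L) (F := F) := by
    have h1 : Pic0.mk (n • D₀) = 0 := hx
    have h2 := (QuotientAddGroup.eq_zero_iff _).1 h1
    rw [AddSubgroup.mem_addSubgroupOf] at h2
    simpa using h2
  obtain ⟨f₀, hf₀0, hf₀div⟩ := hprinc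
  -- bi-unit normalisation
  obtain ⟨c, h, hc0, hh0, hbi⟩ := exists_biUnit (D := D) C.rankOne hne hnpos hroot hf₀0
  obtain ⟨Dh, hDh, hDhdeg⟩ := HasPrincipalDivisors.exists_divisor (K := L) h hh0
  set Eh : Divisor.degZero (K := L) (F := F) := ⟨Dh, hDhdeg⟩ with hEh
  have hEh0 : Pic0.mk Eh = 0 := by
    apply (QuotientAddGroup.eq_zero_iff _).2
    rw [AddSubgroup.mem_addSubgroupOf]
    exact ⟨h, hh0, hDh⟩
  set D₀' : Divisor.degZero (K := L) (F := F) := D₀ + Eh with hD₀'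
  have hmk : Pic0.mk D₀ = Pic0.mk D₀' := by
    rw [hD₀', Pic0.mk_add, hEh0, add_zero]
  set f : F := algebraMap L F c * h ^ n * f₀ with hf
  have hfdiv : ∀ P : Place L F, P.ord f = (n : ℤ) * (D₀' : Divisor L F) P := by
    intro P
    have hcF : algebraMap L F c ≠ 0 := (map_ne_zero _).2 hc0
    rw [hf, P.ord_mul (mul_ne_zero hcF (pow_ne_zero n hh0)) hf₀0,
      P.ord_mul hcF (pow_ne_zero n hh0), S18lib.Cech.ord_const, S18lib.Cech.ord_pow, zero_add,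
      ← hf₀div P, hD₀']
    show (n : ℤ) * P.ord h + (n • (D₀ : Divisor L F)) P =
      (n : ℤ) * ((D₀ : Divisor L F) + (Eh : Divisor L F)) P
    rw [Finsupp.add_apply, Finsupp.smul_apply, nsmul_eq_mul, hEh]
    show _ = (n : ℤ) * ((D₀ : Divisor L F) P + Dh P)
    rw [hDh P]
    ring
  have hmain := frobNew_divisor C hcech hne hs S₁₂ S₂₁ h12 h21 hk₁₂ hk₂₁ hn hbi hfdiv
    (Hα D₀' f hmk hbi hfdiv) (Hβ D₀' f hmk hbi hfdiv)
  -- translate to `Pic⁰`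
  rw [hmk]
  set E₁ : Divisor.degZero (K := L) (F := F) := SemilinearAut.degZeroSMulHom s D₀' - D₀' with hE₁
  have e1 : s • Pic0.mk D₀' - Pic0.mk D₀' = Pic0.mk E₁ := by
    rw [SemilinearAut.pic0_smul_mk]
    rfl
  rw [e1, SemilinearAut.pic0_smul_mk]
  have h3 : Pic0.mk (SemilinearAut.degZeroSMulHom s E₁ - (Q : ℤ) • E₁) = 0 := by
    apply (QuotientAddGroup.eq_zero_iff _).2
    rw [AddSubgroup.mem_addSubgroupOf]
    have e2 : s • ((s • (D₀' : Divisor L F)) - (D₀' : Divisor L F)) =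
        s • s • (D₀' : Divisor L F) - s • (D₀' : Divisor L F) := smul_sub _ _ _
    rw [e2] at hmain
    simpa [hE₁] using hmain
  have h4 : Pic0.mk (SemilinearAut.degZeroSMulHom s E₁ - (Q : ℤ) • E₁) =
      Pic0.mk (SemilinearAut.degZeroSMulHom s E₁) - (Q : ℤ) • Pic0.mk E₁ := rfl
  rw [h4, sub_eq_zero] at h3
  exact h3

end Main

end Fermat.Agent.LSc
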