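/-
LSc / Core / Degeneracy  (helper8)

Brick I3, abstract half: on a curve `F' / L` with a Gauss datum `D0` (good reduction), a function
`N` which is a unit of `D0` and whose divisor is `n` times a PRINCIPAL divisor reduces to a
constant times an `n`-th power.

Use: `N = N_{F/F'} f` for a bi-unit Kummer function `f` of a class `x` with `α_* x = 0`
(`div N = α_*(div f) = n · α_* D₀`, `α_* D₀` principal); the norm–reduction lemma C4 computes
`D0.redF N = red₁ f · σ̄ (red₂ f)`, whence the degeneracy relation (α) of `frobNew_pic0`.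
-/
import Fermat.Agent.LSc.Core.FrobNew

set_option autoImplicit false

noncomputable section

namespace Fermat.Agent.LSc

open AlgebraicCurve Module Fermat.Agent.LSb Fermat.Agent.S18lib

variable {L : Type*} [Field L] {A : ValuationSubring L}
variable {F' : Type*} [Field F'] [Algebra L F']
variable {Fk0 : Type*} [Field Fk0] [Algebra (IsLocalRing.ResidueField A) Fk0]

local notation "k" => IsLocalRing.ResidueField A

/-- a function without zeros and poles on a curve is a nonzero constant -/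
theorem exists_const_of_ord_eq_zero {g' : ℕ} (hF' : IsCurveOfGenus L F' g') {y : F'} (hy : y ≠ 0)
    (h : ∀ v : Place L F', v.ord y = 0) : ∃ c : L, c ≠ 0 ∧ y = algebraMap L F' c := by
  have hmem : y ∈ riemannRochSpace (0 : Divisor L F') := by
    rw [S18lib.Cech.mem_rr_of_ne hy]
    intro v
    rw [h v]
    simp
  rw [hF'.riemannRochSpace_zero] at hmem
  obtain ⟨c, hc⟩ := Algebra.mem_bot.1 ((Subalgebra.mem_toSubmodule _).1 hmem)
  refine ⟨c, ?_, hc.symm⟩
  rintro rfl
  rw [map_zero] at hc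
  exact hy hc.symm

/-- a constant which is a unit of `D0` has a nonzero constant reduction -/
theorem redF_const_of_ne_zero (D0 : GaussDatum A F' Fk0) {c : L}
    (h : D0.redF (algebraMap L F' c) ≠ 0) :
    ∃ c' : k, c' ≠ 0 ∧ D0.redF (algebraMap L F' c) = algebraMap k Fk0 c' := by
  have hcA : c ∈ A := (D0.algebraMap_mem_iff c).1 (D0.mem_of_redF_ne_zero h)
  refine ⟨IsLocalRing.residue A ⟨c, hcA⟩, ?_, D0.redF_algebraMap ⟨c, hcA⟩⟩
  intro h0
  apply h
  have := D0.redF_algebraMap ⟨c, hcA⟩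
  rw [h0, map_zero] at this
  exact this

/-- **(I3, abstract)** a `D0`-unit whose divisor is `n` times a principal divisor reduces to a
constant times an `n`-th power. -/
theorem isConstMulPow_redF_of_principal {g' : ℕ} (hF' : IsCurveOfGenus L F' g')
    (D0 : GaussDatum A F' Fk0) {n : ℕ} {N : F'} (hN : D0.redF N ≠ 0)
    {E : Divisor L F'} (hE : E.IsPrincipal) (hNdiv : ∀ v : Place L F', v.ord N = (n : ℤ) * E v) :
    IsConstMulPow (A := A) n (D0.redF N) := by
  obtain ⟨h', hh'0, hEh'⟩ := hE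
  have hN0 : N ≠ 0 := by
    rintro rfl
    exact hN D0.redF_zero
  -- normalise `h'` to a unit of `D0`
  obtain ⟨c₁, hc₁, hr⟩ := D0.exists_const_mul_redF_ne_zero hh'0
  set h'' : F' := algebraMap L F' c₁ * h' with hh''
  have hh''0 : h'' ≠ 0 := mul_ne_zero ((map_ne_zero _).2 hc₁) hh'0
  -- `N / h''ⁿ` has no zeros and poles
  have hord : ∀ v : Place L F', v.ord (N * (h'' ^ n)⁻¹) = 0 := by
    intro v
    rw [v.ord_mul hN0 (inv_ne_zero (pow_ne_zero n hh''0)), v.ord_inv, S18lib.Cech.ord_pow, hh'',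
      v.ord_mul ((map_ne_zero _).2 hc₁) hh'0, S18lib.Cech.ord_const, zero_add, hNdiv, hEh']
    ring
  obtain ⟨c, hc0, hc⟩ := exists_const_of_ord_eq_zero hF'
    (mul_ne_zero hN0 (inv_ne_zero (pow_ne_zero n hh''0))) hord
  have hNeq : N = algebraMap L F' c * h'' ^ n := by
    rw [← hc, mul_assoc, inv_mul_cancel₀ (pow_ne_zero n hh''0), mul_one]
  -- the constant is a unit of `D0`
  have hpow : D0.redF (h'' ^ n) ≠ 0 := by
    rw [D0.redF_pow (D0.mem_of_redF_ne_zero hr)]
    exact pow_ne_zero n hr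
  have hcred : D0.redF (algebraMap L F' c) ≠ 0 := by
    have e : algebraMap L F' c = N * (h'' ^ n)⁻¹ := hc.symm
    rw [e, D0.redF_mul (D0.mem_of_redF_ne_zero hN) (D0.inv_mem_of_redF_ne_zero hpow),
      D0.redF_inv hpow]
    exact mul_ne_zero hN (inv_ne_zero hpow)
  obtain ⟨c', hc'0, hc'⟩ := redF_const_of_ne_zero D0 hcred
  refine ⟨c', D0.redF h'', hc'0, hr, ?_⟩
  rw [hNeq, D0.redF_mul (D0.mem_of_redF_ne_zero hcred)
    (D0.O.pow_mem (D0.mem_of_redF_ne_zero hr) n), hc', D0.redF_pow (D0.mem_of_redF_ne_zero hr)]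

end Fermat.Agent.LSc
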