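/-
LSc / Core / NormRed  (helper9)

The abstract NORM–REDUCTION lemma (brick C4 of route FN).

`F / F'` a finite extension of fields over `L`; `A` a rank one valuation ring of `L`;
`D0` a Gauss datum on `F'` (residue field `Fk0`); `D1`, `D2` two distinct Gauss data on `F`
(residue fields `Fk1`, `Fk2`, which are `Fk0`-algebras) restricting to `D0` on `F'`, such that
`[F : F'] = [Fk1 : Fk0] + [Fk2 : Fk0]` (no defect, no further extension).  Then for every
`f ∈ O₁ ∩ O₂`:

  `N_{F/F'} f ∈ O°`   and   `red° (N_{F/F'} f) = N_{Fk1/Fk0} (red₁ f) * N_{Fk2/Fk0} (red₂ f)`.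

Proof: lift `Fk0`-bases of `Fk1`, `Fk2` to `O₁ ∩ O₂` (weak approximation, `Frame.exists_lift_pair`);
the lifted family is an `F'`-basis of `F`, orthonormal for the sup-norm, so the matrix of
multiplication by `f` is `O°`-integral and reduces to the block diagonal matrix of the
multiplications by `red₁ f`, `red₂ f`.
-/
import Fermat.Agent.S18lib.Weak.Lemmas
import Fermat.Agent.LSb.Frame.Approx

set_option autoImplicit false
set_option linter.unusedSectionVars false

noncomputable section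

namespace Fermat.Agent.LSc

open Fermat.Agent.S18lib Fermat.Agent.LSb

/-- In a valuation ring, a nonzero finite family has a coefficient of maximal valuation. -/
theorem exists_max_coeff {K : Type*} [Field K] (O : ValuationSubring K) {ι : Type*} [Fintype ι]
    (α : ι → K) (hα : α ≠ 0) : ∃ i₀, α i₀ ≠ 0 ∧ ∀ i, α i / α i₀ ∈ O := by
  classical
  obtain ⟨j, hj⟩ : ∃ j, α j ≠ 0 := by
    by_contra h
    push Not at h
    exact hα (funext h)
  have hne : (Finset.univ : Finset ι).Nonempty := ⟨j, Finset.mem_univ j⟩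
  obtain ⟨i₀, -, hmax⟩ := Finset.exists_max_image Finset.univ (fun i => O.valuation (α i)) hne
  have hvj : O.valuation (α j) ≠ 0 := (Valuation.ne_zero_iff _).mpr hj
  have hv0 : O.valuation (α i₀) ≠ 0 := by
    intro h0
    have := hmax j (Finset.mem_univ j)
    rw [h0] at this
    exact hvj (le_antisymm this zero_le)
  refine ⟨i₀, (Valuation.ne_zero_iff _).mp hv0, fun i => ?_⟩
  rw [← O.valuation_le_one_iff, map_div₀, div_le_one₀ (zero_lt_iff.mpr hv0)]
  exact hmax i (Finset.mem_univ i)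

section

variable {L : Type*} [Field L] {A : ValuationSubring L}
variable {F' F : Type*} [Field F'] [Field F] [Algebra L F'] [Algebra L F] [Algebra F' F]
variable {Fk0 Fk1 Fk2 : Type*} [Field Fk0] [Field Fk1] [Field Fk2]
variable [Algebra (IsLocalRing.ResidueField A) Fk0] [Algebra (IsLocalRing.ResidueField A) Fk1]
  [Algebra (IsLocalRing.ResidueField A) Fk2] [Algebra Fk0 Fk1] [Algebra Fk0 Fk2]

/-- `D1` restricts to `D0` along `F' → F` (only the direction needed). -/
structure Restricts (D0 : GaussDatum A F' Fk0) (D1 : GaussDatum A F Fk1) : Prop where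
  mem : ∀ y : F', y ∈ D0.O → algebraMap F' F y ∈ D1.O
  red : ∀ y : F', y ∈ D0.O → D1.redF (algebraMap F' F y) = algebraMap Fk0 Fk1 (D0.redF y)

/-- A family `e : ι₁ ⊕ ι₂ → F` in `O₁ ∩ O₂` lifting `(b₁, 0)` and `(0, b₂)`. -/
structure IsLiftedFrame (D1 : GaussDatum A F Fk1) (D2 : GaussDatum A F Fk2) {ι₁ ι₂ : Type*}
    (b₁ : ι₁ → Fk1) (b₂ : ι₂ → Fk2) (e : ι₁ ⊕ ι₂ → F) : Prop where
  mem₁ : ∀ i, e i ∈ D1.O
  mem₂ : ∀ i, e i ∈ D2.O
  red₁_inl : ∀ i, D1.redF (e (Sum.inl i)) = b₁ i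
  red₂_inl : ∀ i, D2.redF (e (Sum.inl i)) = 0
  red₁_inr : ∀ j, D1.redF (e (Sum.inr j)) = 0
  red₂_inr : ∀ j, D2.redF (e (Sum.inr j)) = b₂ j

theorem exists_isLiftedFrame {D1 : GaussDatum A F Fk1} {D2 : GaussDatum A F Fk2}
    (hA : Frame.RankOneDvd A) (hne : D1.O ≠ D2.O) {ι₁ ι₂ : Type*}
    (b₁ : ι₁ → Fk1) (b₂ : ι₂ → Fk2) : ∃ e : ι₁ ⊕ ι₂ → F, IsLiftedFrame D1 D2 b₁ b₂ e := by
  choose e₁ h₁ using fun i => Frame.exists_lift_pair hA hne (b₁ i) (0 : Fk2)
  choose e₂ h₂ using fun j => Frame.exists_lift_pair hA hne (0 : Fk1) (b₂ j)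
  refine ⟨Sum.elim e₁ e₂, ?_, ?_, ?_, ?_, ?_, ?_⟩
  · rintro (i | j)
    · exact (h₁ i).1
    · exact (h₂ j).1
  · rintro (i | j)
    · exact (h₁ i).2.1
    · exact (h₂ j).2.1
  · exact fun i => (h₁ i).2.2.1
  · exact fun i => (h₁ i).2.2.2
  · exact fun j => (h₂ j).2.2.1
  · exact fun j => (h₂ j).2.2.2

variable {D0 : GaussDatum A F' Fk0} {D1 : GaussDatum A F Fk1} {D2 : GaussDatum A F Fk2}
variable {ι₁ ι₂ : Type*} [Fintype ι₁] [Fintype ι₂]
variable {b₁ : ι₁ → Fk1} {b₂ : ι₂ → Fk2} {e : ι₁ ⊕ ι₂ → F}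

/-- integral combinations of a lifted frame: membership -/
theorem IsLiftedFrame.sum_mem₁ (he : IsLiftedFrame D1 D2 b₁ b₂ e) (h1 : Restricts D0 D1)
    (α : ι₁ ⊕ ι₂ → F') (hα : ∀ i, α i ∈ D0.O) : ∑ i, α i • e i ∈ D1.O :=
  D1.O.sum_mem fun i _ => by
    rw [Algebra.smul_def]; exact D1.O.mul_mem _ _ (h1.mem _ (hα i)) (he.mem₁ i)

theorem IsLiftedFrame.sum_mem₂ (he : IsLiftedFrame D1 D2 b₁ b₂ e) (h2 : Restricts D0 D2)
    (α : ι₁ ⊕ ι₂ → F') (hα : ∀ i, α i ∈ D0.O) : ∑ i, α i • e i ∈ D2.O :=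
  D2.O.sum_mem fun i _ => by
    rw [Algebra.smul_def]; exact D2.O.mul_mem _ _ (h2.mem _ (hα i)) (he.mem₂ i)

/-- integral combinations of a lifted frame: first reduction -/
theorem IsLiftedFrame.redF₁_sum (he : IsLiftedFrame D1 D2 b₁ b₂ e) (h1 : Restricts D0 D1)
    (α : ι₁ ⊕ ι₂ → F') (hα : ∀ i, α i ∈ D0.O) :
    D1.redF (∑ i, α i • e i) = ∑ i : ι₁, D0.redF (α (Sum.inl i)) • b₁ i := by
  have hmem : ∀ i ∈ (Finset.univ : Finset (ι₁ ⊕ ι₂)), α i • e i ∈ D1.O := fun i _ => by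
    rw [Algebra.smul_def]; exact D1.O.mul_mem _ _ (h1.mem _ (hα i)) (he.mem₁ i)
  have hterm : ∀ i, D1.redF (α i • e i) = algebraMap Fk0 Fk1 (D0.redF (α i)) * D1.redF (e i) := by
    intro i
    rw [Algebra.smul_def, D1.redF_mul (h1.mem _ (hα i)) (he.mem₁ i), h1.red _ (hα i)]
  rw [D1.redF_sum _ _ hmem, Fintype.sum_sum_type]
  simp only [hterm, he.red₁_inl, he.red₁_inr, mul_zero, Finset.sum_const_zero, add_zero]
  exact Finset.sum_congr rfl fun i _ => (Algebra.smul_def _ _).symm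

/-- integral combinations of a lifted frame: second reduction -/
theorem IsLiftedFrame.redF₂_sum (he : IsLiftedFrame D1 D2 b₁ b₂ e) (h2 : Restricts D0 D2)
    (α : ι₁ ⊕ ι₂ → F') (hα : ∀ i, α i ∈ D0.O) :
    D2.redF (∑ i, α i • e i) = ∑ j : ι₂, D0.redF (α (Sum.inr j)) • b₂ j := by
  have hmem : ∀ i ∈ (Finset.univ : Finset (ι₁ ⊕ ι₂)), α i • e i ∈ D2.O := fun i _ => by
    rw [Algebra.smul_def]; exact D2.O.mul_mem _ _ (h2.mem _ (hα i)) (he.mem₂ i)
  have hterm : ∀ i, D2.redF (α i • e i) = algebraMap Fk0 Fk2 (D0.redF (α i)) * D2.redF (e i) := by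
    intro i
    rw [Algebra.smul_def, D2.redF_mul (h2.mem _ (hα i)) (he.mem₂ i), h2.red _ (hα i)]
  rw [D2.redF_sum _ _ hmem, Fintype.sum_sum_type]
  simp only [hterm, he.red₂_inl, he.red₂_inr, mul_zero, Finset.sum_const_zero, zero_add]
  exact Finset.sum_congr rfl fun i _ => (Algebra.smul_def _ _).symm

/-- **Sup-norm formula**: after dividing by a coefficient of maximal valuation, a nonzero
combination of a lifted frame has a nonzero reduction on one of the two components. -/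
theorem IsLiftedFrame.key (he : IsLiftedFrame D1 D2 b₁ b₂ e) (h1 : Restricts D0 D1)
    (h2 : Restricts D0 D2) (hb₁ : LinearIndependent Fk0 b₁) (hb₂ : LinearIndependent Fk0 b₂)
    (α : ι₁ ⊕ ι₂ → F') (hα : α ≠ 0) :
    ∃ i₀, α i₀ ≠ 0 ∧ (∀ i, α i / α i₀ ∈ D0.O) ∧
      (D1.redF ((α i₀)⁻¹ • ∑ i, α i • e i) ≠ 0 ∨ D2.redF ((α i₀)⁻¹ • ∑ i, α i • e i) ≠ 0) := by
  obtain ⟨i₀, hi₀, hdiv⟩ := exists_max_coeff D0.O α hα
  refine ⟨i₀, hi₀, hdiv, ?_⟩
  have hsum : (α i₀)⁻¹ • ∑ i, α i • e i = ∑ i, (α i / α i₀) • e i := by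
    rw [Finset.smul_sum]
    refine Finset.sum_congr rfl fun i _ => ?_
    rw [smul_smul, div_eq_inv_mul]
  have hone : D0.redF (α i₀ / α i₀) = 1 := by rw [div_self hi₀, D0.redF_one]
  rw [hsum, he.redF₁_sum h1 _ hdiv, he.redF₂_sum h2 _ hdiv]
  rcases i₀ with i | j
  · left
    intro h0
    have := Fintype.linearIndependent_iff.mp hb₁ _ h0 i
    rw [hone] at this
    exact one_ne_zero this
  · right
    intro h0
    have := Fintype.linearIndependent_iff.mp hb₂ _ h0 j
    rw [hone] at this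
    exact one_ne_zero this

/-- A lifted frame of linearly independent families is linearly independent over `F'`. -/
theorem IsLiftedFrame.linearIndependent (he : IsLiftedFrame D1 D2 b₁ b₂ e)
    (h1 : Restricts D0 D1) (h2 : Restricts D0 D2) (hb₁ : LinearIndependent Fk0 b₁)
    (hb₂ : LinearIndependent Fk0 b₂) : LinearIndependent F' e := by
  rw [Fintype.linearIndependent_iff]
  intro α hsum
  by_contra hne
  have hα : α ≠ 0 := fun h => hne (fun i => congrFun h i)
  obtain ⟨i₀, -, -, h⟩ := he.key h1 h2 hb₁ hb₂ α hα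
  rw [hsum, smul_zero, D1.redF_zero, D2.redF_zero] at h
  exact h.elim (fun h => h rfl) (fun h => h rfl)

/-- **Orthonormality**: the coordinates of an element of `O₁ ∩ O₂` in a lifted frame are
`O°`-integral. -/
theorem IsLiftedFrame.coeff_mem (he : IsLiftedFrame D1 D2 b₁ b₂ e)
    (h1 : Restricts D0 D1) (h2 : Restricts D0 D2) (hb₁ : LinearIndependent Fk0 b₁)
    (hb₂ : LinearIndependent Fk0 b₂) (α : ι₁ ⊕ ι₂ → F')
    (hx1 : ∑ i, α i • e i ∈ D1.O) (hx2 : ∑ i, α i • e i ∈ D2.O) : ∀ i, α i ∈ D0.O := by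
  rcases eq_or_ne α 0 with rfl | hα
  · intro i; exact D0.O.zero_mem
  obtain ⟨i₀, hi₀, hdiv, h⟩ := he.key h1 h2 hb₁ hb₂ α hα
  have hγ : α i₀ ∈ D0.O := by
    by_contra hnot
    have hinv := Frame.inMax_inv_of_not_mem (D := D0) hnot
    have e1 : D1.redF ((α i₀)⁻¹ • ∑ i, α i • e i) = 0 := by
      rw [Algebra.smul_def, D1.redF_mul (h1.mem _ hinv.1) hx1, h1.red _ hinv.1, hinv.2, map_zero,
        zero_mul]
    have e2 : D2.redF ((α i₀)⁻¹ • ∑ i, α i • e i) = 0 := by
      rw [Algebra.smul_def, D2.redF_mul (h2.mem _ hinv.1) hx2, h2.red _ hinv.1, hinv.2, map_zero,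
        zero_mul]
    exact h.elim (fun h => h e1) (fun h => h e2)
  intro i
  have : α i = α i / α i₀ * α i₀ := by field_simp
  rw [this]
  exact D0.O.mul_mem _ _ (hdiv i) hγ

end

section Main

variable {L : Type*} [Field L] {A : ValuationSubring L}
variable {F' F : Type*} [Field F'] [Field F] [Algebra L F'] [Algebra L F] [Algebra F' F]
variable {Fk0 Fk1 Fk2 : Type*} [Field Fk0] [Field Fk1] [Field Fk2]
variable [Algebra (IsLocalRing.ResidueField A) Fk0] [Algebra (IsLocalRing.ResidueField A) Fk1]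
  [Algebra (IsLocalRing.ResidueField A) Fk2] [Algebra Fk0 Fk1] [Algebra Fk0 Fk2]

/-- **Fundamental inequality** (no finiteness assumption on the residue side): finite
`Fk0`-linearly independent families `w₁` in `Fk1`, `w₂` in `Fk2` have
`#w₁ + #w₂ ≤ [F : F']`. -/
theorem card_add_card_le [FiniteDimensional F' F] {D0 : GaussDatum A F' Fk0}
    {D1 : GaussDatum A F Fk1} {D2 : GaussDatum A F Fk2}
    (hA : Frame.RankOneDvd A) (hne : D1.O ≠ D2.O) (h1 : Restricts D0 D1) (h2 : Restricts D0 D2)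
    {J₁ J₂ : Type*} [Fintype J₁] [Fintype J₂] (w₁ : J₁ → Fk1) (w₂ : J₂ → Fk2)
    (hw₁ : LinearIndependent Fk0 w₁) (hw₂ : LinearIndependent Fk0 w₂) :
    Fintype.card J₁ + Fintype.card J₂ ≤ Module.finrank F' F := by
  obtain ⟨e, he⟩ := exists_isLiftedFrame (D1 := D1) (D2 := D2) hA hne w₁ w₂
  have hli : LinearIndependent F' e := he.linearIndependent h1 h2 hw₁ hw₂
  have := hli.fintype_card_le_finrank
  rwa [Fintype.card_sum] at this

/-- the first residue extension is finite -/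
theorem finite_residue₁ [FiniteDimensional F' F] {D0 : GaussDatum A F' Fk0}
    {D1 : GaussDatum A F Fk1} {D2 : GaussDatum A F Fk2}
    (hA : Frame.RankOneDvd A) (hne : D1.O ≠ D2.O) (h1 : Restricts D0 D1) (h2 : Restricts D0 D2) :
    Module.Finite Fk0 Fk1 := by
  rw [← Module.rank_lt_aleph0_iff]
  refine lt_of_le_of_lt (rank_le (n := Module.finrank F' F) fun s hs => ?_)
    Cardinal.natCast_lt_aleph0
  have := card_add_card_le hA hne h1 h2 (fun i : s => (i : Fk1)) (fun i : Fin 0 => i.elim0) hs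
    (linearIndependent_empty_type)
  simpa using this

/-- the second residue extension is finite -/
theorem finite_residue₂ [FiniteDimensional F' F] {D0 : GaussDatum A F' Fk0}
    {D1 : GaussDatum A F Fk1} {D2 : GaussDatum A F Fk2}
    (hA : Frame.RankOneDvd A) (hne : D1.O ≠ D2.O) (h1 : Restricts D0 D1) (h2 : Restricts D0 D2) :
    Module.Finite Fk0 Fk2 := by
  rw [← Module.rank_lt_aleph0_iff]
  refine lt_of_le_of_lt (rank_le (n := Module.finrank F' F) fun s hs => ?_)
    Cardinal.natCast_lt_aleph0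
  have := card_add_card_le hA hne h1 h2 (fun i : Fin 0 => i.elim0) (fun i : s => (i : Fk2))
    (linearIndependent_empty_type) hs
  simpa using this

/-- `[Fk1 : Fk0] + [Fk2 : Fk0] ≤ [F : F']` -/
theorem finrank_add_finrank_le [FiniteDimensional F' F] {D0 : GaussDatum A F' Fk0}
    {D1 : GaussDatum A F Fk1} {D2 : GaussDatum A F Fk2}
    (hA : Frame.RankOneDvd A) (hne : D1.O ≠ D2.O) (h1 : Restricts D0 D1) (h2 : Restricts D0 D2) :
    Module.finrank Fk0 Fk1 + Module.finrank Fk0 Fk2 ≤ Module.finrank F' F := by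
  have := finite_residue₁ hA hne h1 h2
  have := finite_residue₂ hA hne h1 h2
  have := card_add_card_le hA hne h1 h2 (Module.Free.chooseBasis Fk0 Fk1)
    (Module.Free.chooseBasis Fk0 Fk2) (Module.Free.chooseBasis Fk0 Fk1).linearIndependent
    (Module.Free.chooseBasis Fk0 Fk2).linearIndependent
  rwa [← Module.finrank_eq_card_chooseBasisIndex, ← Module.finrank_eq_card_chooseBasisIndex] at this

/-- The determinant of an `O°`-integral matrix is integral and reduces to the determinant of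
the reduced matrix. -/
theorem det_mem_and_redF_det {n : Type*} [Fintype n] [DecidableEq n] (D0 : GaussDatum A F' Fk0)
    (M : Matrix n n F') (hM : ∀ i j, M i j ∈ D0.O) :
    M.det ∈ D0.O ∧ D0.redF M.det = (M.map D0.redF).det := by
  let M' : Matrix n n D0.O := fun i j => ⟨M i j, hM i j⟩
  have h1 : M = D0.O.subtype.mapMatrix M' := by ext i j; rfl
  have h2 : M.det = D0.O.subtype M'.det := by rw [h1, ← RingHom.map_det]
  have hmem : M.det ∈ D0.O := by rw [h2]; exact M'.det.2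
  refine ⟨hmem, ?_⟩
  have h3 : D0.redF M.det = D0.red M'.det := by
    rw [D0.redF_of_mem hmem]
    congr 1
    exact Subtype.ext h2
  have h4 : M.map D0.redF = D0.red.mapMatrix M' := by
    ext i j
    simp only [Matrix.map_apply, RingHom.mapMatrix_apply]
    exact D0.redF_of_mem (hM i j)
  rw [h3, h4, ← RingHom.map_det]

variable [FiniteDimensional F' F] [Module.Finite Fk0 Fk1] [Module.Finite Fk0 Fk2]

/-- **NORM–REDUCTION.**  For `f ∈ O₁ ∩ O₂`, the norm `N_{F/F'} f` is `O°`-integral and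
`red° (N_{F/F'} f) = N_{Fk1/Fk0} (red₁ f) * N_{Fk2/Fk0} (red₂ f)`. -/
theorem redF_norm (D0 : GaussDatum A F' Fk0) (D1 : GaussDatum A F Fk1) (D2 : GaussDatum A F Fk2)
    (hA : Frame.RankOneDvd A) (hne : D1.O ≠ D2.O) (h1 : Restricts D0 D1) (h2 : Restricts D0 D2)
    (hdeg : Module.finrank F' F = Module.finrank Fk0 Fk1 + Module.finrank Fk0 Fk2)
    {f : F} (hf1 : f ∈ D1.O) (hf2 : f ∈ D2.O) :
    Algebra.norm F' f ∈ D0.O ∧
      D0.redF (Algebra.norm F' f) =
        Algebra.norm Fk0 (D1.redF f) * Algebra.norm Fk0 (D2.redF f) := by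
  classical
  set B₁ := Module.Free.chooseBasis Fk0 Fk1 with hB₁
  set B₂ := Module.Free.chooseBasis Fk0 Fk2 with hB₂
  obtain ⟨e, he⟩ := exists_isLiftedFrame (D1 := D1) (D2 := D2) hA hne (⇑B₁) (⇑B₂)
  have hli : LinearIndependent F' e :=
    he.linearIndependent h1 h2 B₁.linearIndependent B₂.linearIndependent
  have hcard : Fintype.card (Module.Free.ChooseBasisIndex Fk0 Fk1 ⊕
      Module.Free.ChooseBasisIndex Fk0 Fk2) = Module.finrank F' F := by
    rw [Fintype.card_sum, ← Module.finrank_eq_card_chooseBasisIndex,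
      ← Module.finrank_eq_card_chooseBasisIndex, hdeg]
  set B := basisOfLinearIndependentOfCardEqFinrank hli hcard with hBdef
  have hB : ∀ i, B i = e i := fun i => by
    rw [hBdef, coe_basisOfLinearIndependentOfCardEqFinrank]
  set M := Algebra.leftMulMatrix B f with hMdef
  have hexp : ∀ j, ∑ i, M i j • e i = f * e j := by
    intro j
    have := B.sum_repr (f * B j)
    simp only [hB] at this
    rw [← this]
    refine Finset.sum_congr rfl fun i _ => ?_
    rw [hMdef, Algebra.leftMulMatrix_eq_repr_mul, hB]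
  have hcol₁ : ∀ j, f * e j ∈ D1.O := fun j => D1.O.mul_mem _ _ hf1 (he.mem₁ j)
  have hcol₂ : ∀ j, f * e j ∈ D2.O := fun j => D2.O.mul_mem _ _ hf2 (he.mem₂ j)
  have hM : ∀ i j, M i j ∈ D0.O := fun i j =>
    he.coeff_mem h1 h2 B₁.linearIndependent B₂.linearIndependent (fun i => M i j)
      (by rw [hexp]; exact hcol₁ j) (by rw [hexp]; exact hcol₂ j) i
  -- the two reductions of the `j`-th column
  have hr₁ : ∀ j, ∑ i, D0.redF (M (Sum.inl i) j) • B₁ i = D1.redF f * D1.redF (e j) := by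
    intro j
    rw [← he.redF₁_sum h1 (fun i => M i j) (fun i => hM i j), hexp, D1.redF_mul hf1 (he.mem₁ j)]
  have hr₂ : ∀ j, ∑ i, D0.redF (M (Sum.inr i) j) • B₂ i = D2.redF f * D2.redF (e j) := by
    intro j
    rw [← he.redF₂_sum h2 (fun i => M i j) (fun i => hM i j), hexp, D2.redF_mul hf2 (he.mem₂ j)]
  have hblock : M.map D0.redF = Matrix.fromBlocks (Algebra.leftMulMatrix B₁ (D1.redF f)) 0 0
      (Algebra.leftMulMatrix B₂ (D2.redF f)) := by
    ext i j
    rcases i with i | i <;> rcases j with j | j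
    · rw [Matrix.map_apply, Matrix.fromBlocks_apply₁₁, Algebra.leftMulMatrix_eq_repr_mul,
        ← he.red₁_inl j, ← hr₁ (Sum.inl j), B₁.repr_sum_self]
    · rw [Matrix.map_apply, Matrix.fromBlocks_apply₁₂, Matrix.zero_apply]
      have := hr₁ (Sum.inr j)
      rw [he.red₁_inr, mul_zero] at this
      exact Fintype.linearIndependent_iff.mp B₁.linearIndependent _ this i
    · rw [Matrix.map_apply, Matrix.fromBlocks_apply₂₁, Matrix.zero_apply]
      have := hr₂ (Sum.inl j)
      rw [he.red₂_inl, mul_zero] at this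
      exact Fintype.linearIndependent_iff.mp B₂.linearIndependent _ this i
    · rw [Matrix.map_apply, Matrix.fromBlocks_apply₂₂, Algebra.leftMulMatrix_eq_repr_mul,
        ← he.red₂_inr j, ← hr₂ (Sum.inr j), B₂.repr_sum_self]
  obtain ⟨hdet_mem, hdet_red⟩ := det_mem_and_redF_det D0 M hM
  rw [Algebra.norm_eq_matrix_det B f]
  refine ⟨hdet_mem, ?_⟩
  rw [hdet_red, hblock, Matrix.det_fromBlocks_zero₂₁, ← Algebra.norm_eq_matrix_det,
    ← Algebra.norm_eq_matrix_det]

/-- If `[Fk1 : Fk0] = 1` the norm is the inverse of the structure map. -/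
theorem algebraMap_norm_of_finrank_eq_one {K K' : Type*} [Field K] [Field K'] [Algebra K K']
    (h : Module.finrank K K' = 1) (y : K') : algebraMap K K' (Algebra.norm K y) = y := by
  have htop : (⊥ : Subalgebra K K') = ⊤ := Subalgebra.bot_eq_top_of_finrank_eq_one h
  have hy : y ∈ (⊥ : Subalgebra K K') := by rw [htop]; exact Algebra.mem_top
  obtain ⟨y0, rfl⟩ := Algebra.mem_bot.mp hy
  rw [Algebra.norm_algebraMap, h, pow_one]

/-- **NORM–REDUCTION, residue degree one on the first component**: if `[Fk1 : Fk0] = 1`, then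
`algebraMap (red° (N f)) = red₁ f * algebraMap (N_{Fk2/Fk0} (red₂ f))` in `Fk1`. -/
theorem redF_norm_of_finrank_eq_one (D0 : GaussDatum A F' Fk0) (D1 : GaussDatum A F Fk1)
    (D2 : GaussDatum A F Fk2) (hA : Frame.RankOneDvd A) (hne : D1.O ≠ D2.O)
    (h1 : Restricts D0 D1) (h2 : Restricts D0 D2) (hone : Module.finrank Fk0 Fk1 = 1)
    (hdeg : Module.finrank F' F = 1 + Module.finrank Fk0 Fk2)
    {f : F} (hf1 : f ∈ D1.O) (hf2 : f ∈ D2.O) :
    Algebra.norm F' f ∈ D0.O ∧
      algebraMap Fk0 Fk1 (D0.redF (Algebra.norm F' f)) =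
        D1.redF f * algebraMap Fk0 Fk1 (Algebra.norm Fk0 (D2.redF f)) := by
  obtain ⟨hmem, hred⟩ := redF_norm D0 D1 D2 hA hne h1 h2 (by rw [hone]; exact hdeg) hf1 hf2
  refine ⟨hmem, ?_⟩
  rw [hred, map_mul, algebraMap_norm_of_finrank_eq_one hone]

omit [Module.Finite Fk0 Fk1] [Module.Finite Fk0 Fk2] in
/-- `redF_norm` without the finiteness binders (they follow from the fundamental inequality). -/
theorem redF_norm' (D0 : GaussDatum A F' Fk0) (D1 : GaussDatum A F Fk1) (D2 : GaussDatum A F Fk2)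
    (hA : Frame.RankOneDvd A) (hne : D1.O ≠ D2.O) (h1 : Restricts D0 D1) (h2 : Restricts D0 D2)
    (hdeg : Module.finrank F' F = Module.finrank Fk0 Fk1 + Module.finrank Fk0 Fk2)
    {f : F} (hf1 : f ∈ D1.O) (hf2 : f ∈ D2.O) :
    Algebra.norm F' f ∈ D0.O ∧
      D0.redF (Algebra.norm F' f) =
        Algebra.norm Fk0 (D1.redF f) * Algebra.norm Fk0 (D2.redF f) := by
  have := finite_residue₁ hA hne h1 h2
  have := finite_residue₂ hA hne h1 h2
  exact redF_norm D0 D1 D2 hA hne h1 h2 hdeg hf1 hf2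

omit [Module.Finite Fk0 Fk1] [Module.Finite Fk0 Fk2] in
/-- `redF_norm_of_finrank_eq_one` without the finiteness binders. -/
theorem redF_norm_of_finrank_eq_one' (D0 : GaussDatum A F' Fk0) (D1 : GaussDatum A F Fk1)
    (D2 : GaussDatum A F Fk2) (hA : Frame.RankOneDvd A) (hne : D1.O ≠ D2.O)
    (h1 : Restricts D0 D1) (h2 : Restricts D0 D2) (hone : Module.finrank Fk0 Fk1 = 1)
    (hdeg : Module.finrank F' F = 1 + Module.finrank Fk0 Fk2)
    {f : F} (hf1 : f ∈ D1.O) (hf2 : f ∈ D2.O) :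
    Algebra.norm F' f ∈ D0.O ∧
      algebraMap Fk0 Fk1 (D0.redF (Algebra.norm F' f)) =
        D1.redF f * algebraMap Fk0 Fk1 (Algebra.norm Fk0 (D2.redF f)) := by
  have := finite_residue₁ hA hne h1 h2
  have := finite_residue₂ hA hne h1 h2
  exact redF_norm_of_finrank_eq_one D0 D1 D2 hA hne h1 h2 hone hdeg hf1 hf2

end Main

end Fermat.Agent.LSc
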