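/-
LSc / Core / NormPush  (helper9)      -- brick I3 of route FN, generic half

`ψ : F₀ →ₐ[K] F` an integral embedding of function fields satisfying the prelude's norm formula
(`ψ_* (div f) = div (N_ψ f)`), `ψ_* : Pic⁰ F → Pic⁰ F₀` = main's `LSb.Xfer.pic0PushforwardAlong`.

* `KummerRel.pushforwardAlong` : a Kummer representative `f` of `x` gives the Kummer
  representative `N_ψ f` of `ψ_* x`   (for R2.3).
* `isPrincipal_pushforwardAlong_of_eq_zero` : `ψ_* [D₀] = 0 ⇒ ψ_* D₀` principal.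
* `isConstMulPow_of_pushforward_eq_zero` : **the degeneracy relation** `(α)` of
  `frobNew_pic0` in abstract form: in the situation of the norm–reduction lemma C4
  (`D0` on `F₀`, `D1 ≠ D2` on `F` restricting to `D0` through `ι₁`, `ι₂`,
  `[Fk1 : ι₁ Fk0] = 1`, `[F : ψ F₀] = 1 + [Fk2 : ι₂ Fk0]`), for a bi-unit `f` with `div f = n D₀`
  and `ψ_* [D₀] = 0`:   `red₁ f · ι₁ (N_{Fk2 / ι₂ Fk0} (red₂ f)) ∈ kˣ · (Fk1ˣ)ⁿ`.
-/
import Fermat.Agent.LSc.Core.NormRed
import Fermat.Agent.LSc.Core.Degeneracy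
import Fermat.Agent.LSb.Xfer.PushPull
import Fermat.Agent.S29lib.D.KummerCorr

set_option autoImplicit false
set_option linter.style.haveILetI false
set_option linter.unusedSectionVars false

noncomputable section

namespace Fermat.Agent.LSc

open AlgebraicCurve Fermat.Agent.LSb Fermat.Agent.S18lib Fermat.Agent.S29lib.D

section Generic

variable {K F₀ F : Type*} [Field K] [Field F₀] [Field F] [Algebra K F₀] [Algebra K F]
variable (ψ : F₀ →ₐ[K] F) (hψ : ψ.toRingHom.IsIntegral)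
variable (hfin : FiniteAlong K ψ) (hN : NormFormulaAlong K ψ hfin)

include hN in
/-- `ψ_* (n D₀) = div (N_ψ f)` when `n D₀ = div f`. -/
theorem ord_normAlong_eq {n : ℕ} {f : F} (hf : f ≠ 0) {D₀ : Divisor K F}
    (hD₀ : ∀ P : Place K F, (n : ℤ) * D₀ P = P.ord f) (v : Place K F₀) :
    v.ord (normAlong ψ f) = (n : ℤ) * Divisor.pushforwardAlong ψ hψ D₀ v := by
  have h1 : ∀ w : Place K F, ((n : ℤ) • D₀) w = w.ord f := fun w => by
    rw [Finsupp.smul_apply, smul_eq_mul, hD₀ w]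
  have h2 : Divisor.pushforwardAlong ψ hψ ((n : ℤ) • D₀) v = v.ord (normAlong ψ f) := by
    letI := algebraAlong ψ
    haveI := isScalarTower_along ψ
    haveI := isIntegral_along ψ hψ
    haveI : Module.Finite F₀ F := hfin
    exact hN f hf _ h1 v
  rw [← h2, map_zsmul, Finsupp.smul_apply, smul_eq_mul]

variable [HasPrincipalDivisors K F]

/-- **Kummer representatives under push-forward**: if `f` is a Kummer representative of `x`
then `N_ψ f` is a Kummer representative of `ψ_* x`. -/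
theorem KummerRel.pushforwardAlong {n : ℕ} {x : Pic0 K F} {f : F} (h : KummerRel n x f) :
    KummerRel n (Xfer.pic0PushforwardAlong ψ hψ hfin hN x) (normAlong ψ f) := by
  obtain ⟨hf, D, rfl, hD⟩ := h
  refine ⟨normAlong_ne_zero ψ hf hfin,
    ⟨Divisor.pushforwardAlong ψ hψ (D : Divisor K F),
      Divisor.pushforwardAlong_mem_degZero ψ hψ D.2⟩,
    (Xfer.pic0PushforwardAlong_mk ψ hψ hfin hN D).symm, fun P => ?_⟩
  exact (ord_normAlong_eq ψ hψ hfin hN hf hD P).symm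

/-- `ψ_* [D₀] = 0` means that `ψ_* D₀` is principal. -/
theorem isPrincipal_pushforwardAlong_of_eq_zero (D₀ : Divisor.degZero (K := K) (F := F))
    (h : Xfer.pic0PushforwardAlong ψ hψ hfin hN (Pic0.mk D₀) = 0) :
    (Divisor.pushforwardAlong ψ hψ (D₀ : Divisor K F)).IsPrincipal := by
  rw [Xfer.pic0PushforwardAlong_mk] at h
  have h2 := (QuotientAddGroup.eq_zero_iff _).1 h
  rw [AddSubgroup.mem_addSubgroupOf] at h2
  exact h2

end Generic

section Degeneracy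

variable {L : Type*} [Field L] {A : ValuationSubring L}
variable {F₀ F : Type*} [Field F₀] [Field F] [Algebra L F₀] [Algebra L F]
variable {Fk0 Fk1 Fk2 : Type*} [Field Fk0] [Field Fk1] [Field Fk2]
variable [Algebra (IsLocalRing.ResidueField A) Fk0] [Algebra (IsLocalRing.ResidueField A) Fk1]
  [Algebra (IsLocalRing.ResidueField A) Fk2]

local notation "k" => IsLocalRing.ResidueField A

/-- transport of `IsConstMulPow` along a ring homomorphism compatible with the constants -/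
theorem IsConstMulPow.map_ringHom {n : ℕ} (ι : Fk0 →+* Fk1)
    (hι : ∀ c : k, ι (algebraMap k Fk0 c) = algebraMap k Fk1 c) {y : Fk0}
    (hy : IsConstMulPow (A := A) n y) : IsConstMulPow (A := A) n (ι y) := by
  obtain ⟨c, w, hc, hw, rfl⟩ := hy
  exact ⟨c, ι w, hc, (map_ne_zero ι).2 hw, by rw [map_mul, map_pow, hι]⟩

/-- **(I3) the degeneracy relation in abstract form.**  `ψ : F₀ → F` with the norm formula;
`D0` on `F₀`, `D1 ≠ D2` on `F` restricting to `D0` through `ι₁ : Fk0 → Fk1`, `ι₂ : Fk0 → Fk2`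
(no defect: `[Fk1 : ι₁ Fk0] = 1`, `[F : ψ F₀] = 1 + [Fk2 : ι₂ Fk0]`).  For a bi-unit `f` with
`div f = n D₀` and `ψ_* D₀` principal:
`red₁ f · ι₁ (N_{Fk2/ι₂ Fk0} (red₂ f))` is a constant times an `n`-th power. -/
theorem isConstMulPow_of_pushforward_isPrincipal
    (ψ : F₀ →ₐ[L] F) (hψ : ψ.toRingHom.IsIntegral) (hfin : FiniteAlong L ψ)
    (hN : NormFormulaAlong L ψ hfin) {g₀ : ℕ} (hF₀ : IsCurveOfGenus L F₀ g₀)
    (D0 : GaussDatum A F₀ Fk0) (D1 : GaussDatum A F Fk1) (D2 : GaussDatum A F Fk2)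
    (hA : Frame.RankOneDvd A) (hne : D1.O ≠ D2.O)
    (ι₁ : Fk0 →+* Fk1) (ι₂ : Fk0 →+* Fk2)
    (hι₁ : ∀ c : k, ι₁ (algebraMap k Fk0 c) = algebraMap k Fk1 c)
    (hmem1 : ∀ y : F₀, y ∈ D0.O → ψ y ∈ D1.O)
    (hred1 : ∀ y : F₀, y ∈ D0.O → D1.redF (ψ y) = ι₁ (D0.redF y))
    (hmem2 : ∀ y : F₀, y ∈ D0.O → ψ y ∈ D2.O)
    (hred2 : ∀ y : F₀, y ∈ D0.O → D2.redF (ψ y) = ι₂ (D0.redF y))
    (hone : @Module.finrank Fk0 Fk1 _ _ ι₁.toAlgebra.toModule = 1)
    (hdeg : finrankAlong L ψ = 1 + @Module.finrank Fk0 Fk2 _ _ ι₂.toAlgebra.toModule)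
    {n : ℕ} {f : F} (hf1 : D1.redF f ≠ 0) (hf2 : D2.redF f ≠ 0)
    {D₀ : Divisor L F} (hD₀ : ∀ P : Place L F, P.ord f = (n : ℤ) * D₀ P)
    (hpush : (Divisor.pushforwardAlong ψ hψ D₀).IsPrincipal) :
    IsConstMulPow (A := A) n
      (D1.redF f * ι₁ (@Algebra.norm Fk0 Fk2 _ _ ι₂.toAlgebra (D2.redF f))) := by
  letI := algebraAlong ψ
  letI : Algebra Fk0 Fk1 := ι₁.toAlgebra
  letI : Algebra Fk0 Fk2 := ι₂.toAlgebra
  haveI : FiniteDimensional F₀ F := hfin
  have hf0 : f ≠ 0 := by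
    rintro rfl
    exact hf1 D1.redF_zero
  have h1 : Restricts D0 D1 := ⟨hmem1, hred1⟩
  have h2 : Restricts D0 D2 := ⟨hmem2, hred2⟩
  obtain ⟨hNmem, hNred⟩ := redF_norm_of_finrank_eq_one' D0 D1 D2 hA hne h1 h2 hone hdeg
    (D1.mem_of_redF_ne_zero hf1) (D2.mem_of_redF_ne_zero hf2)
  -- the norm of the unit `red₂ f` is nonzero
  haveI := finite_residue₂ hA hne h1 h2
  have hn2 : Algebra.norm Fk0 (D2.redF f) ≠ 0 := Algebra.norm_ne_zero_iff.mpr hf2
  have hNne : D0.redF (Algebra.norm F₀ f) ≠ 0 := by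
    intro h0
    have h3 : D1.redF f * algebraMap Fk0 Fk1 (Algebra.norm Fk0 (D2.redF f)) = 0 := by
      rw [← hNred, h0, map_zero]
    rcases mul_eq_zero.mp h3 with h | h
    · exact hf1 h
    · exact hn2 ((map_eq_zero _).mp h)
  have hdiv : ∀ v : Place L F₀, v.ord (Algebra.norm F₀ f) =
      (n : ℤ) * Divisor.pushforwardAlong ψ hψ D₀ v :=
    fun v => ord_normAlong_eq ψ hψ hfin hN hf0 (fun P => (hD₀ P).symm) v
  have hcmp := isConstMulPow_redF_of_principal hF₀ D0 hNne hpush hdiv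
  have := IsConstMulPow.map_ringHom ι₁ hι₁ hcmp
  rwa [show ι₁ (D0.redF (Algebra.norm F₀ f)) =
    D1.redF f * ι₁ (Algebra.norm Fk0 (D2.redF f)) from hNred] at this

end Degeneracy

end Fermat.Agent.LSc
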